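/-
Programme ORD (S33), chapter ANN (helper3): **one component of a semistable datum** and the calculus of
normalised reductions.

* `Base L k` : a valuation ring `A` of the constant field `L` with its residue map `res : A →+* k`;
  `Base.IsU z` (`|z| = 1`), `Base.resL : L → k` (the residue, `0` outside `A`);
* `Side B F Ft` : a Gauss ring `G ⊂ F` with reduction `red : G →+* Ft` (the fields `const_mem`,
  `red_const`, `norm`, `sat` of `FF/RED/RedDatum7.RedDatum`; a `RedDatum` gives a `Side`, and every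
  component of a semistable datum is one);
* `Side.IsNorm c φ` : `c • φ` is integral with nonzero reduction; `Side.nred c φ` that reduction;
* the calculus: products, inverses, integer powers, finite products, constants, and the comparison of two
  normalisations of the same function (`IsNorm.compare`).
-/
import Mathlib
import Fermat.Agent.FF.RED.Gauss7

set_option autoImplicit false
set_option linter.unusedSectionVars false
set_option linter.style.longLine false

namespace Fermat.Agent.ORD.ANN.Side3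

open Fermat.Agent.FF.RED.Gauss7 Fermat.Agent.FF.RED.RedDatum7

noncomputable section

variable {L k : Type*} [Field L] [Field k]

/-- A valuation ring of the constant field with its residue map. -/
structure Base (L k : Type*) [Field L] [Field k] where
  A : ValuationSubring L
  res : A →+* k
  res_surj : Function.Surjective res
  res_eq_zero_iff : ∀ a : A, res a = 0 ↔ ¬ IsUnit a

namespace Base

variable (B : Base L k)

/-- `z` is a unit of `A`: `|z| = 1`. -/
def IsU (z : L) : Prop := B.A.valuation z = 1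

/-- the residue of an element of `L` (`0` outside `A`). -/
def resL (z : L) : k := by
  classical
  exact if h : z ∈ B.A then B.res ⟨z, h⟩ else 0

theorem resL_of_mem {z : L} (h : z ∈ B.A) : B.resL z = B.res ⟨z, h⟩ := by
  classical
  unfold resL
  rw [dif_pos h]

theorem resL_coe (a : B.A) : B.resL (a : L) = B.res a := B.resL_of_mem a.2

theorem resL_mul {z w : L} (hz : z ∈ B.A) (hw : w ∈ B.A) : B.resL (z * w) = B.resL z * B.resL w := by
  rw [B.resL_of_mem hz, B.resL_of_mem hw, B.resL_of_mem (B.A.mul_mem _ _ hz hw), ← map_mul]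
  rfl

theorem resL_one : B.resL 1 = 1 := by
  rw [B.resL_of_mem B.A.one_mem]
  exact map_one B.res

variable {B}

theorem IsU.mem {z : L} (h : B.IsU z) : z ∈ B.A :=
  (B.A.valuation_le_one_iff z).mp (le_of_eq h)

theorem IsU.ne_zero {z : L} (h : B.IsU z) : z ≠ 0 := by
  rintro rfl
  rw [IsU, map_zero] at h
  exact zero_ne_one h

theorem isU_one : B.IsU 1 := map_one _

theorem IsU.mul {z w : L} (hz : B.IsU z) (hw : B.IsU w) : B.IsU (z * w) := by
  rw [IsU, map_mul, hz, hw, one_mul]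

theorem IsU.inv {z : L} (hz : B.IsU z) : B.IsU z⁻¹ := by
  rw [IsU, map_inv₀, hz, inv_one]

theorem IsU.div {z w : L} (hz : B.IsU z) (hw : B.IsU w) : B.IsU (z / w) := by
  rw [div_eq_mul_inv]; exact hz.mul hw.inv

theorem IsU.zpow {z : L} (hz : B.IsU z) (n : ℤ) : B.IsU (z ^ n) := by
  rw [IsU, map_zpow₀, hz, one_zpow]

theorem IsU.neg {z : L} (hz : B.IsU z) : B.IsU (-z) := by
  rw [IsU, Valuation.map_neg]; exact hz

theorem IsU.isUnit {z : L} (hz : B.IsU z) : IsUnit (⟨z, hz.mem⟩ : B.A) :=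
  (B.A.valuation_eq_one_iff ⟨z, hz.mem⟩).mpr hz

theorem isU_of_isUnit {a : B.A} (ha : IsUnit a) : B.IsU (a : L) :=
  (B.A.valuation_eq_one_iff a).mp ha

theorem isU_iff {z : L} : B.IsU z ↔ z ≠ 0 ∧ z ∈ B.A ∧ z⁻¹ ∈ B.A := by
  constructor
  · intro h
    exact ⟨h.ne_zero, h.mem, h.inv.mem⟩
  · rintro ⟨h0, h1, h2⟩
    have a1 := (B.A.valuation_le_one_iff z).mpr h1
    have a2 := (B.A.valuation_le_one_iff z⁻¹).mpr h2
    rw [map_inv₀] at a2
    have hv0 : B.A.valuation z ≠ 0 := (Valuation.ne_zero_iff _).mpr h0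
    have a3 : 1 ≤ B.A.valuation z := by
      rwa [inv_le_one₀ (zero_lt_iff.mpr hv0)] at a2
    exact le_antisymm a1 a3

theorem IsU.resL_ne_zero {z : L} (hz : B.IsU z) : B.resL z ≠ 0 := by
  rw [B.resL_of_mem hz.mem]
  intro h0
  exact ((B.res_eq_zero_iff _).mp h0) hz.isUnit

theorem IsU.resL_inv {z : L} (hz : B.IsU z) : B.resL z⁻¹ = (B.resL z)⁻¹ := by
  have h := B.resL_mul hz.mem hz.inv.mem
  rw [mul_inv_cancel₀ hz.ne_zero, B.resL_one] at h
  exact eq_inv_of_mul_eq_one_right h.symm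

theorem resL_eq_zero_of_lt {z : L} (hz : B.A.valuation z < 1) : B.resL z = 0 := by
  have hmem : z ∈ B.A := (B.A.valuation_le_one_iff z).mp hz.le
  rw [B.resL_of_mem hmem, B.res_eq_zero_iff]
  intro hu
  have := (B.A.valuation_eq_one_iff ⟨z, hmem⟩).mp hu
  exact (ne_of_lt hz) this

/-- `|z| < 1`. -/
def IsM (B : Base L k) (z : L) : Prop := B.A.valuation z < 1

theorem IsM.mem {z : L} (h : B.IsM z) : z ∈ B.A := (B.A.valuation_le_one_iff z).mp h.le

theorem IsM.not_isUnit {z : L} (h : B.IsM z) : ¬ IsUnit (⟨z, h.mem⟩ : B.A) := by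
  intro hu
  exact (ne_of_lt h) ((B.A.valuation_eq_one_iff ⟨z, h.mem⟩).mp hu)

end Base

variable {F Ft : Type*} [Field F] [Algebra L F] [Field Ft] [Algebra k Ft]

/-- One component: a Gauss ring with its reduction. -/
structure Side (B : Base L k) (F Ft : Type*) [Field F] [Algebra L F] [Field Ft] [Algebra k Ft] where
  G : Subring F
  red : G →+* Ft
  const_mem : ∀ a : B.A, algebraMap L F a ∈ G
  red_const : ∀ a : B.A, red ⟨algebraMap L F a, const_mem a⟩ = algebraMap k Ft (B.res a)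
  norm : ∀ y : F, y ≠ 0 → ∃ c : L, c ≠ 0 ∧ ∃ g : G, (g : F) = algebraMap L F c * y ∧ red g ≠ 0

/-- the base of a `RedDatum` -/
def baseOfRedDatum (D : RedDatum L F k Ft) : Base L k :=
  { A := D.A, res := D.res, res_surj := D.res_surj, res_eq_zero_iff := D.res_eq_zero_iff }

/-- a `RedDatum` is a one-sided datum -/
def sideOfRedDatum (D : RedDatum L F k Ft) : Side (baseOfRedDatum D) F Ft :=
  { G := D.G, red := D.red, const_mem := D.const_mem, red_const := D.red_const, norm := D.norm }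

namespace Side

variable {B : Base L k} (S : Side B F Ft)

theorem coe_ne_zero_of_red_ne_zero {g : S.G} (hg : S.red g ≠ 0) : (g : F) ≠ 0 := by
  intro h0
  apply hg
  have : g = 0 := Subtype.ext h0
  rw [this, map_zero]

/-- the constant `a ∈ A` in the Gauss ring -/
def const (a : B.A) : S.G := ⟨algebraMap L F a, S.const_mem a⟩

@[simp] theorem coe_const (a : B.A) : ((S.const a : S.G) : F) = algebraMap L F (a : L) := rfl

theorem red_const' (a : B.A) : S.red (S.const a) = algebraMap k Ft (B.res a) := S.red_const a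

/-- `G ∩ L = A`. -/
theorem mem_A_of_const_mem {c : L} (h : algebraMap L F c ∈ S.G) : c ∈ B.A := by
  by_contra hc
  have hinv : c⁻¹ ∈ B.A := (B.A.mem_or_inv_mem c).resolve_left hc
  have hc0 : c ≠ 0 := fun h0 => hc (h0 ▸ B.A.zero_mem)
  have hnu := not_isUnit_inv_of_not_mem B.A hc hinv
  have h1 : (1 : S.G) = S.const ⟨c⁻¹, hinv⟩ * ⟨algebraMap L F c, h⟩ := by
    apply Subtype.ext
    show (1 : F) = algebraMap L F c⁻¹ * algebraMap L F c
    rw [← map_mul, inv_mul_cancel₀ hc0, map_one]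
  have h2 := congrArg S.red h1
  rw [map_one, map_mul, S.red_const', (B.res_eq_zero_iff _).mpr hnu, map_zero, zero_mul] at h2
  exact one_ne_zero h2

/-- integral functions with nonzero reduction are units of the Gauss ring. -/
theorem inv_mem {g : S.G} (hg : S.red g ≠ 0) : (g : F)⁻¹ ∈ S.G := by
  have hg0 : (g : F) ≠ 0 := S.coe_ne_zero_of_red_ne_zero hg
  obtain ⟨c, hc0, g', hg', hred'⟩ := S.norm (g : F)⁻¹ (inv_ne_zero hg0)
  have hprod : (g' : F) * (g : F) = algebraMap L F c := by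
    rw [hg', mul_assoc, inv_mul_cancel₀ hg0, mul_one]
  have hcG : algebraMap L F c ∈ S.G := hprod ▸ (g' * g).2
  have hcA : c ∈ B.A := S.mem_A_of_const_mem hcG
  have hres : B.res ⟨c, hcA⟩ ≠ 0 := by
    intro h0
    have h1 : S.const ⟨c, hcA⟩ = g' * g := Subtype.ext hprod.symm
    have h2 := congrArg S.red h1
    rw [S.red_const', h0, map_zero, map_mul] at h2
    exact mul_ne_zero hred' hg h2.symm
  have hu : IsUnit (⟨c, hcA⟩ : B.A) := by
    by_contra h
    exact hres ((B.res_eq_zero_iff _).mpr h)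
  have hcinv : c⁻¹ ∈ B.A := inv_mem_of_isUnit B.A hu
  have : (g : F)⁻¹ = algebraMap L F c⁻¹ * (g' : F) := by
    rw [hg', ← mul_assoc, ← map_mul, inv_mul_cancel₀ hc0, map_one, one_mul]
  rw [this]
  exact S.G.mul_mem (S.const_mem ⟨c⁻¹, hcinv⟩) g'.2

theorem red_inv {g : S.G} (hg : S.red g ≠ 0) : S.red ⟨(g : F)⁻¹, S.inv_mem hg⟩ = (S.red g)⁻¹ := by
  have h1 : g * ⟨(g : F)⁻¹, S.inv_mem hg⟩ = 1 :=
    Subtype.ext (mul_inv_cancel₀ (S.coe_ne_zero_of_red_ne_zero hg))
  have h := congrArg S.red h1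
  rw [map_mul, map_one] at h
  exact eq_inv_of_mul_eq_one_right h

/-! ### normalised reductions -/

/-- `c • φ` is integral with nonzero reduction. -/
def IsNorm (c : L) (φ : F) : Prop :=
  ∃ h : algebraMap L F c * φ ∈ S.G, S.red ⟨_, h⟩ ≠ 0

/-- the reduction of `c • φ` (`0` if not integral). -/
def nred (c : L) (φ : F) : Ft := by
  classical
  exact if h : algebraMap L F c * φ ∈ S.G then S.red ⟨_, h⟩ else 0

theorem nred_of_mem {c : L} {φ : F} (h : algebraMap L F c * φ ∈ S.G) :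
    S.nred c φ = S.red ⟨_, h⟩ := by
  classical
  unfold nred
  rw [dif_pos h]

variable {S}

theorem IsNorm.mem {c : L} {φ : F} (h : S.IsNorm c φ) : algebraMap L F c * φ ∈ S.G := h.1

theorem IsNorm.nred_eq {c : L} {φ : F} (h : S.IsNorm c φ) : S.nred c φ = S.red ⟨_, h.1⟩ :=
  S.nred_of_mem h.1

theorem IsNorm.nred_ne_zero {c : L} {φ : F} (h : S.IsNorm c φ) : S.nred c φ ≠ 0 := by
  rw [h.nred_eq]; exact h.2

theorem IsNorm.smul_ne_zero {c : L} {φ : F} (h : S.IsNorm c φ) : algebraMap L F c * φ ≠ 0 :=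
  S.coe_ne_zero_of_red_ne_zero (g := ⟨_, h.1⟩) h.2

theorem IsNorm.c_ne_zero {c : L} {φ : F} (h : S.IsNorm c φ) : c ≠ 0 := by
  rintro rfl
  exact h.smul_ne_zero (by rw [map_zero, zero_mul])

theorem IsNorm.ne_zero {c : L} {φ : F} (h : S.IsNorm c φ) : φ ≠ 0 := by
  rintro rfl
  exact h.smul_ne_zero (mul_zero _)

variable (S)

theorem exists_isNorm {φ : F} (hφ : φ ≠ 0) : ∃ c : L, S.IsNorm c φ := by
  obtain ⟨c, _, g, hg, hred⟩ := S.norm φ hφ
  refine ⟨c, hg ▸ g.2, ?_⟩
  have : (⟨algebraMap L F c * φ, hg ▸ g.2⟩ : S.G) = g := Subtype.ext hg.symm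
  rw [this]; exact hred

theorem isNorm_one_iff {φ : F} : S.IsNorm 1 φ ↔ ∃ h : φ ∈ S.G, S.red ⟨φ, h⟩ ≠ 0 := by
  unfold IsNorm
  simp only [map_one, one_mul]

theorem isNorm_one_of_mem {φ : F} (h : φ ∈ S.G) (hred : S.red ⟨φ, h⟩ ≠ 0) : S.IsNorm 1 φ :=
  S.isNorm_one_iff.mpr ⟨h, hred⟩

theorem nred_one_of_mem {φ : F} (h : φ ∈ S.G) : S.nred 1 φ = S.red ⟨φ, h⟩ := by
  have h' : algebraMap L F 1 * φ ∈ S.G := by rw [map_one, one_mul]; exact h
  rw [S.nred_of_mem h']
  congr 1
  apply Subtype.ext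
  show algebraMap L F 1 * φ = φ
  rw [map_one, one_mul]

variable {S}

theorem IsNorm.mul {c d : L} {φ ψ : F} (h : S.IsNorm c φ) (h' : S.IsNorm d ψ) :
    S.IsNorm (c * d) (φ * ψ) ∧ S.nred (c * d) (φ * ψ) = S.nred c φ * S.nred d ψ := by
  have heq : algebraMap L F (c * d) * (φ * ψ) = (algebraMap L F c * φ) * (algebraMap L F d * ψ) := by
    rw [map_mul]; ring
  have hmem : algebraMap L F (c * d) * (φ * ψ) ∈ S.G := by
    rw [heq]; exact S.G.mul_mem h.1 h'.1
  have hred : S.red ⟨_, hmem⟩ = S.red ⟨_, h.1⟩ * S.red ⟨_, h'.1⟩ := by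
    rw [← map_mul]
    congr 1
    exact Subtype.ext heq
  refine ⟨⟨hmem, ?_⟩, ?_⟩
  · rw [hred]; exact _root_.mul_ne_zero h.2 h'.2
  · rw [S.nred_of_mem hmem, hred, h.nred_eq, h'.nred_eq]

theorem IsNorm.inv {c : L} {φ : F} (h : S.IsNorm c φ) :
    S.IsNorm c⁻¹ φ⁻¹ ∧ S.nred c⁻¹ φ⁻¹ = (S.nred c φ)⁻¹ := by
  have heq : algebraMap L F c⁻¹ * φ⁻¹ = (algebraMap L F c * φ)⁻¹ := by
    rw [map_inv₀, mul_inv]
  have hmem : algebraMap L F c⁻¹ * φ⁻¹ ∈ S.G := by
    rw [heq]; exact S.inv_mem (g := ⟨_, h.1⟩) h.2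
  have hred : S.red ⟨_, hmem⟩ = (S.red ⟨_, h.1⟩)⁻¹ := by
    rw [← S.red_inv (g := ⟨_, h.1⟩) h.2]
    congr 1
    exact Subtype.ext heq
  refine ⟨⟨hmem, ?_⟩, ?_⟩
  · rw [hred]; exact inv_ne_zero h.2
  · rw [S.nred_of_mem hmem, hred, h.nred_eq]

theorem IsNorm.congr {c d : L} {φ ψ : F} (e : algebraMap L F c * φ = algebraMap L F d * ψ)
    (h : S.IsNorm c φ) : S.IsNorm d ψ ∧ S.nred d ψ = S.nred c φ := by
  have hmem : algebraMap L F d * ψ ∈ S.G := e ▸ h.1
  have hred : S.red ⟨_, hmem⟩ = S.red ⟨_, h.1⟩ := by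
    congr 1
    exact Subtype.ext e.symm
  exact ⟨⟨hmem, by rw [hred]; exact h.2⟩, by rw [S.nred_of_mem hmem, hred, h.nred_eq]⟩

theorem isNorm_one_one : S.IsNorm 1 (1 : F) ∧ S.nred 1 (1 : F) = 1 := by
  have h1 : (1 : F) ∈ S.G := S.G.one_mem
  have hred : S.red ⟨1, h1⟩ = 1 := map_one S.red
  refine ⟨S.isNorm_one_of_mem h1 (by rw [hred]; exact one_ne_zero), ?_⟩
  rw [S.nred_one_of_mem h1, hred]

theorem IsNorm.pow {c : L} {φ : F} (h : S.IsNorm c φ) (n : ℕ) :
    S.IsNorm (c ^ n) (φ ^ n) ∧ S.nred (c ^ n) (φ ^ n) = S.nred c φ ^ n := by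
  induction n with
  | zero => simpa using isNorm_one_one (S := S)
  | succ n ih =>
    have := ih.1.mul h
    rw [pow_succ, pow_succ, pow_succ]
    exact ⟨this.1, by rw [this.2, ih.2]⟩

theorem IsNorm.zpow {c : L} {φ : F} (h : S.IsNorm c φ) (n : ℤ) :
    S.IsNorm (c ^ n) (φ ^ n) ∧ S.nred (c ^ n) (φ ^ n) = S.nred c φ ^ n := by
  cases n with
  | ofNat n =>
    simp only [Int.ofNat_eq_natCast, zpow_natCast]
    exact h.pow n
  | negSucc n =>
    simp only [zpow_negSucc]
    have h1 := (h.pow (n + 1)).1.inv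
    exact ⟨h1.1, by rw [h1.2, (h.pow (n + 1)).2]⟩

theorem IsNorm.prod {ι : Type*} (s : Finset ι) {c : ι → L} {φ : ι → F}
    (h : ∀ i ∈ s, S.IsNorm (c i) (φ i)) :
    S.IsNorm (∏ i ∈ s, c i) (∏ i ∈ s, φ i) ∧
      S.nred (∏ i ∈ s, c i) (∏ i ∈ s, φ i) = ∏ i ∈ s, S.nred (c i) (φ i) := by
  classical
  induction s using Finset.induction_on with
  | empty => simpa using isNorm_one_one (S := S)
  | insert a s ha ih =>
    have ih' := ih fun i hi => h i (Finset.mem_insert_of_mem hi)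
    have h1 := (h a (Finset.mem_insert_self a s)).mul ih'.1
    rw [Finset.prod_insert ha, Finset.prod_insert ha, Finset.prod_insert ha]
    exact ⟨h1.1, by rw [h1.2, ih'.2]⟩

/-- constants: `c * d` a unit of `A`. -/
theorem isNorm_const {c d : L} (h : B.IsU (c * d)) :
    S.IsNorm c (algebraMap L F d) ∧ S.nred c (algebraMap L F d) = algebraMap k Ft (B.resL (c * d)) := by
  have heq : algebraMap L F c * algebraMap L F d = algebraMap L F ((⟨c * d, h.mem⟩ : B.A) : L) := by
    rw [← map_mul]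
  have hmem : algebraMap L F c * algebraMap L F d ∈ S.G := by
    rw [heq]; exact S.const_mem _
  have hred : S.red ⟨_, hmem⟩ = algebraMap k Ft (B.resL (c * d)) := by
    rw [B.resL_of_mem h.mem, ← S.red_const]
    congr 1
    exact Subtype.ext heq
  refine ⟨⟨hmem, ?_⟩, ?_⟩
  · rw [hred]
    exact (map_ne_zero _).mpr h.resL_ne_zero
  · rw [S.nred_of_mem hmem, hred]

/-- **comparison of two normalisations**: the constants differ by a unit of `A`, the reductions by its
residue. -/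
theorem IsNorm.compare {c c' : L} {φ : F} (h : S.IsNorm c φ) (h' : S.IsNorm c' φ) :
    B.IsU (c' / c) ∧ S.nred c' φ = algebraMap k Ft (B.resL (c' / c)) * S.nred c φ := by
  have hφ := h.ne_zero
  have hc := h.c_ne_zero
  have hc' := h'.c_ne_zero
  -- `c'/c = (c' φ) (c φ)⁻¹` is a constant in `G` with nonzero reduction, and so is its inverse
  have h1 := h'.mul h.inv.1
  have e1 : φ * φ⁻¹ = (1 : F) := mul_inv_cancel₀ hφ
  rw [e1] at h1
  have h2 := h.mul h'.inv.1
  rw [e1] at h2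
  have m1 : c' * c⁻¹ ∈ B.A := by
    apply S.mem_A_of_const_mem
    have := h1.1.mem
    rwa [mul_one] at this
  have m2 : c * c'⁻¹ ∈ B.A := by
    apply S.mem_A_of_const_mem
    have := h2.1.mem
    rwa [mul_one] at this
  have hU : B.IsU (c' / c) := by
    rw [Base.isU_iff]
    refine ⟨div_ne_zero hc' hc, by rwa [div_eq_mul_inv], ?_⟩
    rw [inv_div, div_eq_mul_inv]; exact m2
  refine ⟨hU, ?_⟩
  have h3 := (isNorm_const (S := S) (c := c' / c) (d := 1) (by rwa [mul_one])).1.mul h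
  have h4 := (isNorm_const (S := S) (c := c' / c) (d := 1) (by rwa [mul_one])).2
  have e2 : c' / c * c = c' := div_mul_cancel₀ c' hc
  rw [map_one, one_mul, e2] at h3
  rw [map_one, mul_one] at h4
  rw [h3.2, h4]

theorem IsNorm.of_isU_mul {c u : L} {φ : F} (h : S.IsNorm c φ) (hu : B.IsU u) :
    S.IsNorm (u * c) φ ∧ S.nred (u * c) φ = algebraMap k Ft (B.resL u) * S.nred c φ := by
  have h3 := (isNorm_const (S := S) (c := u) (d := 1) (by rwa [mul_one])).1.mul h
  have h4 := (isNorm_const (S := S) (c := u) (d := 1) (by rwa [mul_one])).2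
  rw [map_one, one_mul] at h3
  rw [map_one, mul_one] at h4
  refine ⟨h3.1, ?_⟩
  rw [h3.2, h4]

end Side

end

end Fermat.Agent.ORD.ANN.Side3
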