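/-
Programme ORD (S33), chapter ANN (helper3): **a node of a semistable datum** — the annulus calculus.

`NodeChart B HL S S' Hk Hk'` : two components `S`, `S'` (Gauss rings with reductions), two branches
`Q`, `Q'`, the annulus coordinate `x`, the thickness `π`, the set `ann` of places reducing to the node,
with the axioms of finding #335:

* (X1) `x ∈ G`, `ord_Q (red x) = 1`;  (X2) `π / x ∈ G'`, `ord_Q' (red' (π / x)) = 1`;
* (PT) for `P ∈ ann` : `a_P := x(P)` has `0 < v(a_P) < v(π)`, `x - a_P` is a uniformizer at `P`,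
  `P ↦ a_P` is injective on `ann`;
* (UNIT) a function without zeros and poles on `ann` is `c * x ^ n * U` with `U` a unit of both
  Gauss rings whose reductions are units at the two branches with the SAME value.

Results (for every `φ ≠ 0`, normalisers `c` on `S`, `c'` on `S'`, `s := ord_Q (nred c φ)`,
`s' := ord_Q' (nred' c' φ)`, `m_P := ord_P φ`):

* `slope_add`  (N1) : `s + s' = ∑_{P ∈ ann} m_P`;
* `val_jump`   (N2) : `|c'| * |π| ^ s = |c| * ∏_{P ∈ ann} |π / a_P| ^ m_P`;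
* `lead_jump`  (N3) : if `s = s' = 0` then `z := c' / c * ∏ a_P ^ m_P` is a unit of `A` and
  `(nred' c' φ)(Q') = res z * (nred c φ)(Q)`.
-/
import Mathlib
import Fermat.Agent.ORD.ANN.Side3
import Fermat.Agent.RR.LSpace
import Fermat.Agent.MW.EMB.Value6

set_option autoImplicit false
set_option linter.unusedSectionVars false
set_option linter.style.longLine false

namespace Fermat.Agent.ORD.ANN.Node3

open AlgebraicCurve Fermat.Agent.X0.FF Fermat.Agent.RR.LSpace Fermat.Agent.MW.EMB.Value6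
open Fermat.Agent.ORD.ANN.Side3

noncomputable section

variable {L k F Ft Ft' : Type*} [Field L] [Field k] [Field F] [Algebra L F]
  [Field Ft] [Algebra k Ft] [Field Ft'] [Algebra k Ft']

/-! ### generalities -/

theorem prod_zpow_base {G₀ ι : Type*} [CommGroupWithZero G₀] {b : G₀} (hb : b ≠ 0) (s : Finset ι)
    (m : ι → ℤ) : ∏ i ∈ s, b ^ m i = b ^ ∑ i ∈ s, m i := by
  classical
  induction s using Finset.induction_on with
  | empty => simp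
  | insert a s ha ih => rw [Finset.prod_insert ha, Finset.sum_insert ha, zpow_add₀ hb, ih]

theorem ord_prod_zpow {K E : Type*} [Field K] [Field E] [Algebra K E] (v : Place K E) {ι : Type*}
    (s : Finset ι) (f : ι → E) (m : ι → ℤ) (hf : ∀ i ∈ s, f i ≠ 0) :
    v.ord (∏ i ∈ s, f i ^ m i) = ∑ i ∈ s, m i * v.ord (f i) := by
  classical
  induction s using Finset.induction_on with
  | empty => simp [Place.ord_one]
  | insert a s ha ih =>
    have hfa := hf a (Finset.mem_insert_self a s)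
    have hfs : ∀ i ∈ s, f i ≠ 0 := fun i hi => hf i (Finset.mem_insert_of_mem hi)
    have hprod : ∏ i ∈ s, f i ^ m i ≠ 0 :=
      Finset.prod_ne_zero_iff.mpr fun i hi => zpow_ne_zero _ (hfs i hi)
    rw [Finset.prod_insert ha, Finset.sum_insert ha, v.ord_mul (zpow_ne_zero _ hfa) hprod,
      v.ord_zpow, ih hfs]

/-- a function which is regular with nonzero value at `v` has order `0`. -/
theorem ord_eq_zero_of_valF_ne_zero {K E : Type*} [Field K] [Field E] [Algebra K E] (H : LHyp K E)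
    (v : Place K E) {f : E} (hreg : 0 ≤ v.ord f) (hval : valF H v f ≠ 0) : v.ord f = 0 := by
  have hmem : f ∈ v.toValuationSubring := ffp_mem_of_ord_nonneg v hreg
  by_contra hne
  apply hval
  rw [valF_eq_zero_iff H v hmem]
  right
  omega

/-! ### the structure -/

/-- A node between the components `S` and `S'`. -/
structure NodeChart (B : Base L k) (HL : LHyp L F) (S : Side B F Ft) (S' : Side B F Ft')
    (Hk : LHyp k Ft) (Hk' : LHyp k Ft') where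
  /-- the branch on `S` -/
  Q : Place k Ft
  /-- the branch on `S'` -/
  Q' : Place k Ft'
  /-- the annulus coordinate -/
  x : F
  /-- the thickness -/
  π : L
  π_ne : π ≠ 0
  π_lt : B.IsM π
  /-- the places reducing to the node -/
  ann : Set (Place L F)
  x_mem : x ∈ S.G
  ord_x : Q.ord (S.red ⟨x, x_mem⟩) = 1
  y_mem : algebraMap L F π * x⁻¹ ∈ S'.G
  ord_y : Q'.ord (S'.red ⟨algebraMap L F π * x⁻¹, y_mem⟩) = 1
  x_reg : ∀ P ∈ ann, 0 ≤ P.ord x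
  a_lt : ∀ P ∈ ann, B.IsM (valF HL P x)
  a_gt : ∀ P ∈ ann, B.IsM (π / valF HL P x)
  a_ne : ∀ P ∈ ann, valF HL P x ≠ 0
  ord_lin : ∀ P ∈ ann, P.ord (x - algebraMap L F (valF HL P x)) = 1
  a_inj : ∀ P ∈ ann, ∀ P' ∈ ann, valF HL P x = valF HL P' x → P = P'
  unit : ∀ φ : F, φ ≠ 0 → (∀ P ∈ ann, P.ord φ = 0) → ∃ (c : L) (n : ℤ), c ≠ 0 ∧
    ∃ (hU : φ / (algebraMap L F c * x ^ n) ∈ S.G) (hU' : φ / (algebraMap L F c * x ^ n) ∈ S'.G),
      S.red ⟨_, hU⟩ ≠ 0 ∧ S'.red ⟨_, hU'⟩ ≠ 0 ∧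
      Q.ord (S.red ⟨_, hU⟩) = 0 ∧ Q'.ord (S'.red ⟨_, hU'⟩) = 0 ∧
      valF Hk Q (S.red ⟨_, hU⟩) = valF Hk' Q' (S'.red ⟨_, hU'⟩)

namespace NodeChart

variable {B : Base L k} {HL : LHyp L F} {S : Side B F Ft} {S' : Side B F Ft'}
  {Hk : LHyp k Ft} {Hk' : LHyp k Ft'} (N : NodeChart B HL S S' Hk Hk')

/-- the coordinate of a place -/
def a (P : Place L F) : L := valF HL P N.x

/-- the linear factor `x - a_P` -/
def lin (P : Place L F) : F := N.x - algebraMap L F (N.a P)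

/-- the reduction of `x` on `S` -/
def xb : Ft := S.red ⟨N.x, N.x_mem⟩

/-- the reduction of `π / x` on `S'` -/
def yb : Ft' := S'.red ⟨algebraMap L F N.π * N.x⁻¹, N.y_mem⟩

theorem xb_ne_zero : N.xb ≠ 0 := by
  intro h
  have := N.ord_x
  rw [show S.red ⟨N.x, N.x_mem⟩ = N.xb from rfl, h, Place.ord_zero] at this
  exact zero_ne_one this

theorem yb_ne_zero : N.yb ≠ 0 := by
  intro h
  have := N.ord_y
  rw [show S'.red ⟨algebraMap L F N.π * N.x⁻¹, N.y_mem⟩ = N.yb from rfl, h, Place.ord_zero] at this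
  exact zero_ne_one this

theorem ord_xb : N.Q.ord N.xb = 1 := N.ord_x

theorem ord_yb : N.Q'.ord N.yb = 1 := N.ord_y

theorem x_ne_zero : N.x ≠ 0 := by
  intro h
  apply N.xb_ne_zero
  have : (⟨N.x, N.x_mem⟩ : S.G) = 0 := Subtype.ext h
  rw [xb, this, map_zero]

theorem lin_ne_zero {P : Place L F} (hP : P ∈ N.ann) : N.lin P ≠ 0 := by
  intro h
  have := N.ord_lin P hP
  rw [show N.x - algebraMap L F (valF HL P N.x) = N.lin P from rfl, h, Place.ord_zero] at this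
  exact zero_ne_one this

theorem ord_lin_self {P : Place L F} (hP : P ∈ N.ann) : P.ord (N.lin P) = 1 := N.ord_lin P hP

theorem x_mem_place {P : Place L F} (hP : P ∈ N.ann) : N.x ∈ P.toValuationSubring :=
  ffp_mem_of_ord_nonneg P (N.x_reg P hP)

/-- `x - a_P` has no other zero or pole on the annulus. -/
theorem ord_lin_of_ne {P P' : Place L F} (hP : P ∈ N.ann) (hP' : P' ∈ N.ann) (hne : P' ≠ P) :
    P'.ord (N.lin P) = 0 := by
  have hx := N.x_mem_place hP'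
  have hc : algebraMap L F (N.a P) ∈ P'.toValuationSubring := P'.algebraMap_mem' _
  have hval : valF HL P' (N.lin P) = N.a P' - N.a P := by
    rw [lin, valF_sub HL P' hx hc, valF_algebraMap]
    rfl
  apply ord_eq_zero_of_valF_ne_zero HL P'
  · exact ffp_ord_nonneg_of_mem P' (sub_mem hx hc)
  · rw [hval, sub_ne_zero]
    intro h
    exact hne (N.a_inj P' hP' P hP h)

theorem ord_lin_eq {P P' : Place L F} (hP : P ∈ N.ann) (hP' : P' ∈ N.ann) [Decidable (P' = P)] :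
    P'.ord (N.lin P) = if P' = P then 1 else 0 := by
  split_ifs with h
  · rw [h]; exact N.ord_lin_self hP
  · exact N.ord_lin_of_ne hP hP' h

/-- `x` has no zero or pole on the annulus. -/
theorem ord_x_ann {P : Place L F} (hP : P ∈ N.ann) : P.ord N.x = 0 :=
  ord_eq_zero_of_valF_ne_zero HL P (N.x_reg P hP) (N.a_ne P hP)

/-! ### the basic factors on the two sides -/

theorem isNorm_x : S.IsNorm 1 N.x ∧ S.nred 1 N.x = N.xb :=
  ⟨S.isNorm_one_of_mem N.x_mem N.xb_ne_zero, S.nred_one_of_mem N.x_mem⟩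

theorem isNorm_y' : S'.IsNorm 1 (algebraMap L F N.π * N.x⁻¹) ∧
    S'.nred 1 (algebraMap L F N.π * N.x⁻¹) = N.yb :=
  ⟨S'.isNorm_one_of_mem N.y_mem N.yb_ne_zero, S'.nred_one_of_mem N.y_mem⟩

theorem isNorm_x' : S'.IsNorm N.π⁻¹ N.x ∧ S'.nred N.π⁻¹ N.x = N.yb⁻¹ := by
  have h := N.isNorm_y'.1.inv
  have e : algebraMap L F (1 : L)⁻¹ * (algebraMap L F N.π * N.x⁻¹)⁻¹ = algebraMap L F N.π⁻¹ * N.x := by
    rw [inv_one, map_one, one_mul, mul_inv, inv_inv, map_inv₀]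
  have h1 := Side.IsNorm.congr e h.1
  exact ⟨h1.1, by rw [h1.2, h.2, N.isNorm_y'.2]⟩

theorem isNorm_lin {P : Place L F} (hP : P ∈ N.ann) :
    S.IsNorm 1 (N.lin P) ∧ S.nred 1 (N.lin P) = N.xb := by
  have ha : N.a P ∈ B.A := (N.a_lt P hP).mem
  have hmem : N.lin P ∈ S.G := S.G.sub_mem N.x_mem (S.const_mem ⟨N.a P, ha⟩)
  have hred : S.red ⟨N.lin P, hmem⟩ = N.xb := by
    have e : (⟨N.lin P, hmem⟩ : S.G) = ⟨N.x, N.x_mem⟩ - S.const ⟨N.a P, ha⟩ := Subtype.ext rfl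
    have h0 : B.res ⟨N.a P, ha⟩ = 0 := (B.res_eq_zero_iff _).mpr (N.a_lt P hP).not_isUnit
    rw [e, map_sub, S.red_const', h0, map_zero, sub_zero]
    rfl
  exact ⟨S.isNorm_one_of_mem hmem (by rw [hred]; exact N.xb_ne_zero),
    by rw [S.nred_one_of_mem hmem, hred]⟩

theorem isNorm_lin' {P : Place L F} (hP : P ∈ N.ann) :
    S'.IsNorm (-(N.a P))⁻¹ (N.lin P) ∧ S'.nred (-(N.a P))⁻¹ (N.lin P) = 1 := by
  have ha0 : N.a P ≠ 0 := N.a_ne P hP
  have hq : B.IsM (N.π / N.a P) := N.a_gt P hP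
  -- `(-a)⁻¹ (x - a) = 1 - (π/a) * (π/x)⁻¹`
  have hyinv : (algebraMap L F N.π * N.x⁻¹)⁻¹ ∈ S'.G :=
    S'.inv_mem (g := ⟨_, N.y_mem⟩) N.yb_ne_zero
  have e : algebraMap L F (-(N.a P))⁻¹ * N.lin P =
      1 - algebraMap L F (N.π / N.a P) * (algebraMap L F N.π * N.x⁻¹)⁻¹ := by
    have hπF : algebraMap L F N.π ≠ 0 := (map_ne_zero _).mpr N.π_ne
    have haF : algebraMap L F (N.a P) ≠ 0 := (map_ne_zero _).mpr ha0
    rw [lin, map_inv₀, map_neg, map_div₀, mul_inv, inv_inv]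
    field_simp
    ring
  have hmem : algebraMap L F (-(N.a P))⁻¹ * N.lin P ∈ S'.G := by
    rw [e]
    exact S'.G.sub_mem S'.G.one_mem (S'.G.mul_mem (S'.const_mem ⟨_, hq.mem⟩) hyinv)
  have hred : S'.red ⟨_, hmem⟩ = 1 := by
    have e' : (⟨_, hmem⟩ : S'.G) = 1 - S'.const ⟨_, hq.mem⟩ * ⟨_, hyinv⟩ := Subtype.ext e
    have h0 : B.res ⟨N.π / N.a P, hq.mem⟩ = 0 := (B.res_eq_zero_iff _).mpr hq.not_isUnit
    rw [e', map_sub, map_one, map_mul, S'.red_const', h0, map_zero, zero_mul, sub_zero]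
  exact ⟨⟨hmem, by rw [hred]; exact one_ne_zero⟩, by rw [S'.nred_of_mem hmem, hred]⟩

/-! ### the factorisation on the annulus -/

open Classical in
/-- the zeros and poles of `φ` on the annulus -/
def supp {φ : F} (hφ : φ ≠ 0) : Finset (Place L F) :=
  (divOf HL hφ).support.filter (fun P => P ∈ N.ann)

theorem mem_supp {φ : F} (hφ : φ ≠ 0) {P : Place L F} :
    P ∈ N.supp hφ ↔ P.ord φ ≠ 0 ∧ P ∈ N.ann := by
  classical
  rw [supp, Finset.mem_filter, Finsupp.mem_support_iff, divOf_apply]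

theorem mem_ann_of_mem_supp {φ : F} (hφ : φ ≠ 0) {P : Place L F} (h : P ∈ N.supp hφ) :
    P ∈ N.ann := ((N.mem_supp hφ).mp h).2

/-- the product of the linear factors of `φ` on the annulus -/
def Lam {φ : F} (hφ : φ ≠ 0) : F := ∏ P ∈ N.supp hφ, N.lin P ^ P.ord φ

theorem Lam_ne_zero {φ : F} (hφ : φ ≠ 0) : N.Lam hφ ≠ 0 :=
  Finset.prod_ne_zero_iff.mpr fun _ hP =>
    zpow_ne_zero _ (N.lin_ne_zero (N.mem_ann_of_mem_supp hφ hP))

theorem ord_Lam {φ : F} (hφ : φ ≠ 0) {P : Place L F} (hP : P ∈ N.ann) :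
    P.ord (N.Lam hφ) = P.ord φ := by
  classical
  rw [Lam, ord_prod_zpow P _ _ _ fun P' hP' => N.lin_ne_zero (N.mem_ann_of_mem_supp hφ hP')]
  have h1 : ∀ P' ∈ N.supp hφ, P'.ord φ * P.ord (N.lin P') = if P = P' then P.ord φ else 0 := by
    intro P' hP'
    rw [N.ord_lin_eq (N.mem_ann_of_mem_supp hφ hP') hP]
    split_ifs with h
    · rw [h, mul_one]
    · rw [mul_zero]
  rw [Finset.sum_congr rfl h1, Finset.sum_ite_eq]
  split_ifs with h
  · rfl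
  · by_contra hne
    exact h ((N.mem_supp hφ).mpr ⟨fun h0 => hne h0.symm, hP⟩)

/-- **The normal form of a function near the node.** -/
theorem exists_normal_form {φ : F} (hφ : φ ≠ 0) :
    ∃ (c₀ : L) (n : ℤ) (Ub : Ft) (Ub' : Ft'), c₀ ≠ 0 ∧ Ub ≠ 0 ∧ Ub' ≠ 0 ∧
      N.Q.ord Ub = 0 ∧ N.Q'.ord Ub' = 0 ∧ valF Hk N.Q Ub = valF Hk' N.Q' Ub' ∧
      S.IsNorm c₀⁻¹ φ ∧ S.nred c₀⁻¹ φ = N.xb ^ (n + ∑ P ∈ N.supp hφ, P.ord φ) * Ub ∧
      S'.IsNorm (c₀⁻¹ * N.π⁻¹ ^ n * ∏ P ∈ N.supp hφ, (-(N.a P))⁻¹ ^ P.ord φ) φ ∧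
      S'.nred (c₀⁻¹ * N.π⁻¹ ^ n * ∏ P ∈ N.supp hφ, (-(N.a P))⁻¹ ^ P.ord φ) φ = N.yb⁻¹ ^ n * Ub' := by
  classical
  have hΛ := N.Lam_ne_zero hφ
  have hφ' : φ / N.Lam hφ ≠ 0 := div_ne_zero hφ hΛ
  have h0 : ∀ P ∈ N.ann, P.ord (φ / N.Lam hφ) = 0 := by
    intro P hP
    rw [div_eq_mul_inv, P.ord_mul hφ (inv_ne_zero hΛ), P.ord_inv, N.ord_Lam hφ hP, add_neg_cancel]
  obtain ⟨c₀, n, hc₀, hU, hU', hr, hr', ho, ho', hv⟩ := N.unit _ hφ' h0
  set U : F := φ / N.Lam hφ / (algebraMap L F c₀ * N.x ^ n) with hUdef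
  have hc₀F : algebraMap L F c₀ ≠ 0 := (map_ne_zero _).mpr hc₀
  have hxn : N.x ^ n ≠ 0 := zpow_ne_zero _ N.x_ne_zero
  have hφeq0 : φ = algebraMap L F c₀ * N.x ^ n * N.Lam hφ * U := by
    rw [hUdef]; field_simp
  have hφeq : φ = algebraMap L F c₀ * N.x ^ n * (∏ P ∈ N.supp hφ, N.lin P ^ P.ord φ) * U := hφeq0
  refine ⟨c₀, n, S.red ⟨U, hU⟩, S'.red ⟨U, hU'⟩, hc₀, hr, hr', ho, ho', hv, ?_⟩
  -- the constant
  have hcu : B.IsU (c₀⁻¹ * c₀) := by rw [inv_mul_cancel₀ hc₀]; exact Base.isU_one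
  -- side `S`
  have a1 := Side.isNorm_const (S := S) hcu
  have a2 := N.isNorm_x.1.zpow n
  have a3 := Side.IsNorm.prod (S := S) (N.supp hφ) (c := fun P => (1 : L) ^ P.ord φ)
    (φ := fun P => N.lin P ^ P.ord φ)
    (fun P hP => ((N.isNorm_lin (N.mem_ann_of_mem_supp hφ hP)).1.zpow _).1)
  have a4 : S.IsNorm 1 U := S.isNorm_one_of_mem hU hr
  have a5 := ((a1.1.mul a2.1).1.mul a3.1).1.mul a4
  have ec : c₀⁻¹ * (1 : L) ^ n * (∏ P ∈ N.supp hφ, (1 : L) ^ P.ord φ) * 1 = c₀⁻¹ := by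
    rw [one_zpow, Finset.prod_eq_one fun P _ => one_zpow _, mul_one, mul_one, mul_one]
  have a6 : S.nred c₀⁻¹ φ = N.xb ^ (n + ∑ P ∈ N.supp hφ, P.ord φ) * S.red ⟨U, hU⟩ := by
    have := a5.2
    rw [ec, ← hφeq, ((a1.1.mul a2.1).1.mul a3.1).2, (a1.1.mul a2.1).2, a1.2, a2.2, a3.2,
      N.isNorm_x.2, S.nred_one_of_mem hU, inv_mul_cancel₀ hc₀, B.resL_one, map_one, one_mul] at this
    rw [this, zpow_add₀ N.xb_ne_zero, ← prod_zpow_base N.xb_ne_zero]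
    congr 2
    refine Finset.prod_congr rfl fun P hP => ?_
    rw [((N.isNorm_lin (N.mem_ann_of_mem_supp hφ hP)).1.zpow _).2,
      (N.isNorm_lin (N.mem_ann_of_mem_supp hφ hP)).2]
  have a7 : S.IsNorm c₀⁻¹ φ := by
    have := a5.1
    rwa [ec, ← hφeq] at this
  -- side `S'`
  have b1 := Side.isNorm_const (S := S') hcu
  have b2 := N.isNorm_x'.1.zpow n
  have b3 := Side.IsNorm.prod (S := S') (N.supp hφ) (c := fun P => (-(N.a P))⁻¹ ^ P.ord φ)
    (φ := fun P => N.lin P ^ P.ord φ)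
    (fun P hP => ((N.isNorm_lin' (N.mem_ann_of_mem_supp hφ hP)).1.zpow _).1)
  have b4 : S'.IsNorm 1 U := S'.isNorm_one_of_mem hU' hr'
  have b5 := ((b1.1.mul b2.1).1.mul b3.1).1.mul b4
  have b6 : S'.nred (c₀⁻¹ * N.π⁻¹ ^ n * ∏ P ∈ N.supp hφ, (-(N.a P))⁻¹ ^ P.ord φ) φ =
      N.yb⁻¹ ^ n * S'.red ⟨U, hU'⟩ := by
    have := b5.2
    rw [mul_one, ← hφeq, ((b1.1.mul b2.1).1.mul b3.1).2, (b1.1.mul b2.1).2, b1.2, b2.2, b3.2,
      N.isNorm_x'.2, S'.nred_one_of_mem hU', inv_mul_cancel₀ hc₀, B.resL_one, map_one, one_mul] at this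
    rw [this]
    have e1 : ∏ P ∈ N.supp hφ, S'.nred ((-(N.a P))⁻¹ ^ P.ord φ) (N.lin P ^ P.ord φ) = 1 := by
      refine Finset.prod_eq_one fun P hP => ?_
      rw [((N.isNorm_lin' (N.mem_ann_of_mem_supp hφ hP)).1.zpow _).2,
        (N.isNorm_lin' (N.mem_ann_of_mem_supp hφ hP)).2, one_zpow]
    rw [e1, mul_one]
  have b7 : S'.IsNorm (c₀⁻¹ * N.π⁻¹ ^ n * ∏ P ∈ N.supp hφ, (-(N.a P))⁻¹ ^ P.ord φ) φ := by
    have := b5.1
    rwa [mul_one, ← hφeq] at this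
  exact ⟨a7, a6, b7, b6⟩

/-- the normal form, packaged -/
structure NF {φ : F} (hφ : φ ≠ 0) where
  c₀ : L
  n : ℤ
  Ub : Ft
  Ub' : Ft'
  c₀_ne : c₀ ≠ 0
  Ub_ne : Ub ≠ 0
  Ub'_ne : Ub' ≠ 0
  ordU : N.Q.ord Ub = 0
  ordU' : N.Q'.ord Ub' = 0
  val_eq : valF Hk N.Q Ub = valF Hk' N.Q' Ub'
  isNorm : S.IsNorm c₀⁻¹ φ
  nred_eq : S.nred c₀⁻¹ φ = N.xb ^ (n + ∑ P ∈ N.supp hφ, P.ord φ) * Ub
  isNorm' : S'.IsNorm (c₀⁻¹ * N.π⁻¹ ^ n * ∏ P ∈ N.supp hφ, (-(N.a P))⁻¹ ^ P.ord φ) φ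
  nred_eq' : S'.nred (c₀⁻¹ * N.π⁻¹ ^ n * ∏ P ∈ N.supp hφ, (-(N.a P))⁻¹ ^ P.ord φ) φ =
    N.yb⁻¹ ^ n * Ub'

theorem nonempty_NF {φ : F} (hφ : φ ≠ 0) : Nonempty (N.NF hφ) := by
  obtain ⟨c₀, n, Ub, Ub', h1, h2, h3, h4, h5, h6, h7, h8, h9, h10⟩ := N.exists_normal_form hφ
  exact ⟨⟨c₀, n, Ub, Ub', h1, h2, h3, h4, h5, h6, h7, h8, h9, h10⟩⟩

namespace NF

variable {N} {φ : F} {hφ : φ ≠ 0} (T : N.NF hφ)

/-- the canonical normaliser on `S` -/
def cS : L := T.c₀⁻¹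

/-- the canonical normaliser on `S'` -/
def cS' : L := T.c₀⁻¹ * N.π⁻¹ ^ T.n * ∏ P ∈ N.supp hφ, (-(N.a P))⁻¹ ^ P.ord φ

/-- the total order of `φ` on the annulus -/
def tot (_T : N.NF hφ) : ℤ := ∑ P ∈ N.supp hφ, P.ord φ

theorem ord_nred_cS : N.Q.ord (S.nred T.cS φ) = T.n + T.tot := by
  rw [cS, T.nred_eq, N.Q.ord_mul (zpow_ne_zero _ N.xb_ne_zero) T.Ub_ne, N.Q.ord_zpow, N.ord_xb,
    T.ordU, mul_one, add_zero]
  rfl

theorem ord_nred_cS' : N.Q'.ord (S'.nred T.cS' φ) = -T.n := by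
  rw [cS', T.nred_eq', N.Q'.ord_mul (zpow_ne_zero _ (inv_ne_zero N.yb_ne_zero)) T.Ub'_ne,
    N.Q'.ord_zpow, N.Q'.ord_inv, N.ord_yb, T.ordU', add_zero, mul_neg, mul_one]

theorem ord_nred {c : L} (h : S.IsNorm c φ) : N.Q.ord (S.nred c φ) = T.n + T.tot := by
  have h1 := (T.isNorm.compare h).2
  have hu := (T.isNorm.compare h).1
  rw [h1, N.Q.ord_mul ((map_ne_zero _).mpr hu.resL_ne_zero) T.isNorm.nred_ne_zero,
    ffp_ord_algebraMap, zero_add]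
  exact T.ord_nred_cS

theorem ord_nred' {c' : L} (h' : S'.IsNorm c' φ) : N.Q'.ord (S'.nred c' φ) = -T.n := by
  have h1 := (T.isNorm'.compare h').2
  have hu := (T.isNorm'.compare h').1
  rw [h1, N.Q'.ord_mul ((map_ne_zero _).mpr hu.resL_ne_zero) T.isNorm'.nred_ne_zero,
    ffp_ord_algebraMap, zero_add]
  exact T.ord_nred_cS'

end NF

/-- **(N1)** the slopes at the two branches add up to the number of zeros on the annulus. -/
theorem slope_add {φ : F} (hφ : φ ≠ 0) {c c' : L} (h : S.IsNorm c φ) (h' : S'.IsNorm c' φ) :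
    N.Q.ord (S.nred c φ) + N.Q'.ord (S'.nred c' φ) = ∑ P ∈ N.supp hφ, P.ord φ := by
  obtain ⟨T⟩ := N.nonempty_NF hφ
  rw [T.ord_nred h, T.ord_nred' h']
  show T.n + (∑ P ∈ N.supp hφ, P.ord φ) + -T.n = _
  ring

namespace NF

variable {N} {φ : F} {hφ : φ ≠ 0} (T : N.NF hφ)

theorem val_a_ne_zero {P : Place L F} (hP : P ∈ N.ann) : B.A.valuation (N.a P) ≠ 0 :=
  (Valuation.ne_zero_iff _).mpr (N.a_ne P hP)

theorem val_π_ne_zero : B.A.valuation N.π ≠ 0 := (Valuation.ne_zero_iff _).mpr N.π_ne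

theorem val_cS : B.A.valuation T.cS = (B.A.valuation T.c₀)⁻¹ := by
  rw [cS, map_inv₀]

theorem val_cS' : B.A.valuation T.cS' = (B.A.valuation T.c₀)⁻¹ * (B.A.valuation N.π)⁻¹ ^ T.n *
    ∏ P ∈ N.supp hφ, (B.A.valuation (N.a P))⁻¹ ^ P.ord φ := by
  rw [cS', map_mul, map_mul, map_inv₀, map_zpow₀, map_inv₀, map_prod]
  congr 1
  refine Finset.prod_congr rfl fun P _ => ?_
  rw [map_zpow₀, map_inv₀, Valuation.map_neg]

theorem val_eq_cS {c : L} (h : S.IsNorm c φ) : B.A.valuation c = B.A.valuation T.cS := by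
  have hu : B.A.valuation (c / T.cS) = 1 := (T.isNorm.compare h).1
  rw [map_div₀] at hu
  have h0 : B.A.valuation T.cS ≠ 0 := (Valuation.ne_zero_iff _).mpr T.isNorm.c_ne_zero
  exact (div_eq_one_iff_eq h0).mp hu

theorem val_eq_cS' {c' : L} (h' : S'.IsNorm c' φ) : B.A.valuation c' = B.A.valuation T.cS' := by
  have hu : B.A.valuation (c' / T.cS') = 1 := (T.isNorm'.compare h').1
  rw [map_div₀] at hu
  have h0 : B.A.valuation T.cS' ≠ 0 := (Valuation.ne_zero_iff _).mpr T.isNorm'.c_ne_zero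
  exact (div_eq_one_iff_eq h0).mp hu

end NF

/-- **(N2)** the jump of the Gauss valuation across the annulus. -/
theorem val_jump {φ : F} (hφ : φ ≠ 0) {c c' : L} (h : S.IsNorm c φ) (h' : S'.IsNorm c' φ) :
    B.A.valuation c' * B.A.valuation N.π ^ N.Q.ord (S.nred c φ) =
      B.A.valuation c * ∏ P ∈ N.supp hφ, B.A.valuation (N.π / N.a P) ^ P.ord φ := by
  obtain ⟨T⟩ := N.nonempty_NF hφ
  have hπ := NF.val_π_ne_zero (N := N)
  rw [T.ord_nred h, T.val_eq_cS h, T.val_eq_cS' h', T.val_cS, T.val_cS']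
  have e1 : ∏ P ∈ N.supp hφ, B.A.valuation (N.π / N.a P) ^ P.ord φ =
      B.A.valuation N.π ^ T.tot * ∏ P ∈ N.supp hφ, (B.A.valuation (N.a P))⁻¹ ^ P.ord φ := by
    rw [NF.tot, ← prod_zpow_base hπ, ← Finset.prod_mul_distrib]
    refine Finset.prod_congr rfl fun P _ => ?_
    rw [map_div₀, div_eq_mul_inv, mul_zpow]
  rw [e1, zpow_add₀ hπ, inv_zpow]
  have e2 : (B.A.valuation N.π ^ T.n)⁻¹ * B.A.valuation N.π ^ T.n = 1 :=
    inv_mul_cancel₀ (zpow_ne_zero _ hπ)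
  calc (B.A.valuation T.c₀)⁻¹ * (B.A.valuation N.π ^ T.n)⁻¹ *
        (∏ P ∈ N.supp hφ, (B.A.valuation (N.a P))⁻¹ ^ P.ord φ) *
        (B.A.valuation N.π ^ T.n * B.A.valuation N.π ^ T.tot)
      = (B.A.valuation T.c₀)⁻¹ * ((B.A.valuation N.π ^ T.n)⁻¹ * B.A.valuation N.π ^ T.n) *
        (B.A.valuation N.π ^ T.tot *
          ∏ P ∈ N.supp hφ, (B.A.valuation (N.a P))⁻¹ ^ P.ord φ) := by ac_rfl
    _ = _ := by rw [e2, mul_one]

/-- **(N3)** the jump of the leading coefficient across the annulus (the torus coordinate). -/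
theorem lead_jump {φ : F} (hφ : φ ≠ 0) {c c' : L} (h : S.IsNorm c φ) (h' : S'.IsNorm c' φ)
    (hs : N.Q.ord (S.nred c φ) = 0) (hs' : N.Q'.ord (S'.nred c' φ) = 0) :
    B.IsU (c' / c * ∏ P ∈ N.supp hφ, N.a P ^ P.ord φ) ∧
      valF Hk' N.Q' (S'.nred c' φ) =
        B.resL (c' / c * ∏ P ∈ N.supp hφ, N.a P ^ P.ord φ) * valF Hk N.Q (S.nred c φ) := by
  obtain ⟨T⟩ := N.nonempty_NF hφ
  have hn : T.n = 0 := by
    have := T.ord_nred' h'
    rw [hs'] at this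
    omega
  have htot : T.tot = 0 := by
    have := T.ord_nred h
    rw [hs, hn] at this
    omega
  have hu := (T.isNorm.compare h).1
  have hu' := (T.isNorm'.compare h').1
  have hc := h.c_ne_zero
  have hcS : T.cS ≠ 0 := T.isNorm.c_ne_zero
  have hcS' : T.cS' ≠ 0 := T.isNorm'.c_ne_zero
  -- the shape of `cS'`
  have hPi : ∏ P ∈ N.supp hφ, (-(N.a P))⁻¹ ^ P.ord φ = (∏ P ∈ N.supp hφ, N.a P ^ P.ord φ)⁻¹ := by
    have e : ∀ P ∈ N.supp hφ, (-(N.a P))⁻¹ ^ P.ord φ = (-1 : L) ^ P.ord φ * (N.a P ^ P.ord φ)⁻¹ := by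
      intro P _
      have : (-(N.a P))⁻¹ = (-1 : L) * (N.a P)⁻¹ := by
        rw [inv_neg, neg_one_mul]
      rw [this, mul_zpow, inv_zpow]
    rw [Finset.prod_congr rfl e, Finset.prod_mul_distrib,
      prod_zpow_base (by norm_num : (-1 : L) ≠ 0), show ∑ P ∈ N.supp hφ, P.ord φ = T.tot from rfl,
      htot, zpow_zero, one_mul, Finset.prod_inv_distrib]
  have hPi0 : ∏ P ∈ N.supp hφ, N.a P ^ P.ord φ ≠ 0 :=
    Finset.prod_ne_zero_iff.mpr fun P hP =>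
      zpow_ne_zero _ (N.a_ne P (N.mem_ann_of_mem_supp hφ hP))
  have hcS'eq : T.cS' = T.cS * (∏ P ∈ N.supp hφ, N.a P ^ P.ord φ)⁻¹ := by
    rw [NF.cS', NF.cS, hn, zpow_zero, mul_one, hPi]
  have hz : c' / c * ∏ P ∈ N.supp hφ, N.a P ^ P.ord φ = (c' / T.cS') / (c / T.cS) := by
    rw [hcS'eq]
    field_simp
  have hzU : B.IsU (c' / c * ∏ P ∈ N.supp hφ, N.a P ^ P.ord φ) := by
    rw [hz]; exact hu'.div hu
  refine ⟨hzU, ?_⟩
  -- the two reductions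
  have r1 : S.nred c φ = algebraMap k Ft (B.resL (c / T.cS)) * T.Ub := by
    have e1 : S.nred c φ = algebraMap k Ft (B.resL (c / T.cS)) * S.nred T.cS φ :=
      (T.isNorm.compare h).2
    have e2 : S.nred T.cS φ = N.xb ^ (T.n + T.tot) * T.Ub := T.nred_eq
    rw [e1, e2, hn, htot, add_zero, zpow_zero, one_mul]
  have r2 : S'.nred c' φ = algebraMap k Ft' (B.resL (c' / T.cS')) * T.Ub' := by
    have e1 : S'.nred c' φ = algebraMap k Ft' (B.resL (c' / T.cS')) * S'.nred T.cS' φ :=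
      (T.isNorm'.compare h').2
    have e2 : S'.nred T.cS' φ = N.yb⁻¹ ^ T.n * T.Ub' := T.nred_eq'
    rw [e1, e2, hn, zpow_zero, one_mul]
  have mU : T.Ub ∈ N.Q.toValuationSubring := ffp_mem_of_ord_nonneg _ (le_of_eq T.ordU.symm)
  have mU' : T.Ub' ∈ N.Q'.toValuationSubring := ffp_mem_of_ord_nonneg _ (le_of_eq T.ordU'.symm)
  rw [r1, r2, valF_mul Hk N.Q (N.Q.algebraMap_mem' _) mU, valF_mul Hk' N.Q' (N.Q'.algebraMap_mem' _) mU',
    valF_algebraMap, valF_algebraMap, T.val_eq, hz, ← mul_assoc]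
  congr 1
  have := B.resL_mul (hu'.div hu).mem hu.mem
  rw [div_mul_cancel₀ _ hu.ne_zero] at this
  exact this

end NodeChart

end

end Fermat.Agent.ORD.ANN.Node3
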