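/-
Programme ORD (S33), chapter ANN (helper3): **provisional global semistable datum** (the part consumed
by the twisted NS lemma and by the inertia theorem of finding #335; the final `SemiRedDatum` of O4
projects to it).

* `SemiRed B HL Ft E` : components `v : V` (`side v`, `Hk v`), nodes `e : E` (`src e`, `tgt e`,
  `node e : NodeChart …`), the smooth reduction `r : Place L F → Option (Σ v, Place k (Ft v))`
  (`none` = the place lies on an annulus), and the fibre-sum compatibility at the non-branch points;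
* `fibSum 𝔻 D v Q` : the sum of `D` over the residue disc of `(v, Q)`;  `annSum`, `annProd`;
* `Sec 𝔻 Dt` : sections of `O(Dt)` on the nodal curve = tuples `(f v)`, ZERO COMPONENTS ALLOWED,
  poles bounded by `Dt`, values matched at the nodes;  `NonSpecial 𝔻 Dt`;
* `TwistedNS 𝔻` : the STATEMENT of the twisted NS lemma (proved in `TwistedNS2`).
-/
import Mathlib
import Fermat.Agent.ORD.ANN.Node3

set_option autoImplicit false
set_option linter.unusedSectionVars false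
set_option linter.style.longLine false

namespace Fermat.Agent.ORD.ANN.SemiRed3

open AlgebraicCurve Fermat.Agent.X0.FF Fermat.Agent.RR.LSpace Fermat.Agent.MW.EMB.Value6
open Fermat.Agent.ORD.ANN.Side3 Fermat.Agent.ORD.ANN.Node3

noncomputable section

variable {L k F : Type*} [Field L] [Field k] [Field F] [Algebra L F]

open Classical in
/-- **Provisional semistable datum.** -/
structure SemiRed (B : Base L k) (HL : LHyp L F) {V : Type*} (Ft : V → Type*)
    [∀ v, Field (Ft v)] [∀ v, Algebra k (Ft v)] (E : Type*) where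
  Hk : ∀ v, LHyp k (Ft v)
  side : ∀ v, Side B F (Ft v)
  src : E → V
  tgt : E → V
  node : ∀ e, NodeChart B HL (side (src e)) (side (tgt e)) (Hk (src e)) (Hk (tgt e))
  /-- the smooth reduction; `none` on the annuli -/
  r : Place L F → Option (Σ v, Place k (Ft v))
  r_none_iff : ∀ P, r P = none ↔ ∃ e, P ∈ (node e).ann
  ann_disjoint : ∀ e e' P, P ∈ (node e).ann → P ∈ (node e').ann → e = e'
  r_ne_src : ∀ P e, r P ≠ some ⟨src e, (node e).Q⟩
  r_ne_tgt : ∀ P e, r P ≠ some ⟨tgt e, (node e).Q'⟩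
  /-- fibre-sum compatibility at the non-branch points -/
  compat : ∀ (v : V) {φ : F} (hφ : φ ≠ 0) {c : L}, (side v).IsNorm c φ → ∀ Q : Place k (Ft v),
    (∀ e, (⟨src e, (node e).Q⟩ : Σ v, Place k (Ft v)) ≠ ⟨v, Q⟩) →
    (∀ e, (⟨tgt e, (node e).Q'⟩ : Σ v, Place k (Ft v)) ≠ ⟨v, Q⟩) →
    ∑ P ∈ (divOf HL hφ).support.filter (fun P => r P = some ⟨v, Q⟩), P.ord φ =
      Q.ord ((side v).nred c φ)

variable {B : Base L k} {HL : LHyp L F} {V : Type*} {Ft : V → Type*}
  [∀ v, Field (Ft v)] [∀ v, Algebra k (Ft v)] {E : Type*}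

namespace SemiRed

variable (𝔻 : SemiRed B HL Ft E)

/-- `(v, Q)` is not a branch of a node. -/
def NonBranch (v : V) (Q : Place k (Ft v)) : Prop :=
  (∀ e, (⟨𝔻.src e, (𝔻.node e).Q⟩ : Σ v, Place k (Ft v)) ≠ ⟨v, Q⟩) ∧
  (∀ e, (⟨𝔻.tgt e, (𝔻.node e).Q'⟩ : Σ v, Place k (Ft v)) ≠ ⟨v, Q⟩)

theorem nonBranch_of_r {P : Place L F} {v : V} {Q : Place k (Ft v)} (h : 𝔻.r P = some ⟨v, Q⟩) :
    𝔻.NonBranch v Q :=
  ⟨fun e he => 𝔻.r_ne_src P e (he ▸ h), fun e he => 𝔻.r_ne_tgt P e (he ▸ h)⟩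

/-- the place is smooth (not on an annulus) -/
def Smooth (P : Place L F) : Prop := (𝔻.r P).isSome

theorem smooth_iff_not_ann {P : Place L F} : 𝔻.Smooth P ↔ ∀ e, P ∉ (𝔻.node e).ann := by
  rw [Smooth, Option.isSome_iff_ne_none, Ne, 𝔻.r_none_iff]
  push Not
  rfl

open Classical in
/-- the sum of `D` over the residue disc of `(v, Q)` -/
def fibSum (D : Divisor L F) (v : V) (Q : Place k (Ft v)) : ℤ :=
  ∑ P ∈ D.support.filter (fun P => 𝔻.r P = some ⟨v, Q⟩), D P

open Classical in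
/-- the sum of `D` over the annulus of `e` -/
def annSum (D : Divisor L F) (e : E) : ℤ :=
  ∑ P ∈ D.support.filter (fun P => P ∈ (𝔻.node e).ann), D P

open Classical in
/-- the torus coordinate of `D` at `e` : `∏_{P ∈ ann e} a_P ^ D(P)` -/
def annProd (D : Divisor L F) (e : E) : L :=
  ∏ P ∈ D.support.filter (fun P => P ∈ (𝔻.node e).ann), (𝔻.node e).a P ^ D P

/-- **Sections of `O(Dt)` on the nodal curve**: tuples, zero components allowed, matched at the nodes. -/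
structure Sec (Dt : ∀ v, Place k (Ft v) → ℤ) where
  f : ∀ v, Ft v
  pole : ∀ v, f v ≠ 0 → ∀ Q : Place k (Ft v), -(Dt v Q) ≤ Q.ord (f v)
  matched : ∀ e, valF (𝔻.Hk (𝔻.src e)) (𝔻.node e).Q (f (𝔻.src e)) =
    valF (𝔻.Hk (𝔻.tgt e)) (𝔻.node e).Q' (f (𝔻.tgt e))

/-- `H⁰(X~, O(Dt)) = k`. -/
def NonSpecial (Dt : ∀ v, Place k (Ft v) → ℤ) : Prop :=
  ∀ s : 𝔻.Sec Dt, ∃ c : k, ∀ v, s.f v = algebraMap k (Ft v) c

/-- **The twisted NS lemma** (statement; finding #335 §3).  `D0 ≥ 0` smooth with non-special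
reduction, `hRR` Riemann–Roch in existence form, `Z` of degree `0`, `h` a tuple of functions which are
units at all branches, with
(a) `fibSum Z = div h` off the branches, (b) `Z` has degree `0` and trivial valuation-moment on every
annulus, (c) the branch values of `h` differ by the torus coordinate of `Z`.
Then `Z + D0` is linearly equivalent to an effective `E` off the annuli with `fibSum E = fibSum D0`. -/
def TwistedNS : Prop :=
  ∀ (D0 : Divisor L F), 0 ≤ D0 → (∀ P, D0 P ≠ 0 → 𝔻.Smooth P) →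
    𝔻.NonSpecial (fun v Q => 𝔻.fibSum D0 v Q) →
    (∀ D : Divisor L F, Divisor.degree D = Divisor.degree D0 →
      ∃ (φ : F) (hφ : φ ≠ 0), 0 ≤ D + divOf HL hφ) →
    ∀ (Z : Divisor L F), Divisor.degree Z = 0 →
    ∀ (h : ∀ v, Ft v), (∀ v, h v ≠ 0) →
      (∀ e, (𝔻.node e).Q.ord (h (𝔻.src e)) = 0) → (∀ e, (𝔻.node e).Q'.ord (h (𝔻.tgt e)) = 0) →
      (∀ v Q, 𝔻.NonBranch v Q → 𝔻.fibSum Z v Q = Q.ord (h v)) →
      (∀ e, 𝔻.annSum Z e = 0) → (∀ e, B.IsU (𝔻.annProd Z e)) →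
      (∀ e, valF (𝔻.Hk (𝔻.tgt e)) (𝔻.node e).Q' (h (𝔻.tgt e)) =
        B.resL (𝔻.annProd Z e) * valF (𝔻.Hk (𝔻.src e)) (𝔻.node e).Q (h (𝔻.src e))) →
    ∃ (φ : F) (hφ : φ ≠ 0), 0 ≤ Z + D0 + divOf HL hφ ∧
      (∀ P, (Z + D0 + divOf HL hφ) P ≠ 0 → 𝔻.Smooth P) ∧
      ∀ v Q, 𝔻.fibSum (Z + D0 + divOf HL hφ) v Q = 𝔻.fibSum D0 v Q

end SemiRed

end

end Fermat.Agent.ORD.ANN.SemiRed3
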