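/-
Programme ORD (S33), chapter ANN (helper3): **property (i)** — inertia moves `p`-power torsion classes
into the kernel of reduction (finding #335 §4), at the level of divisors.

`Inertial 𝔻 σ` : the semilinear automorphism `σ` of `F / L` preserves the valuation of `L`, every Gauss
ring `G v`, and commutes with every reduction (`red v (σ g) = red v g`).  Nothing else is needed: no
hypothesis on the action of `σ` on places, annuli or node coordinates.

`exists_effective_of_inertial` : if `p ^ m • Dx = div fx` (`p = char k`, `k` perfect) then for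
`Z := σ • Dx - Dx` the hypotheses of the twisted NS lemma hold with a CONSTANT tuple `h`, hence
`Z + D0 ∼ E ≥ 0` with `E` off the annuli and `fibSum E = fibSum D0`.

Proof: `f := σ fx / fx` has `div f = p ^ m • Z` and is a unit of every `G v` with CONSTANT reduction
`ζ v ∈ kˣ`.  Fibre sums (S) give (a), (N1) gives (b1), (N3) gives (b2) and
`ζ (tgt e) = τ_e ^ (p ^ m) * ζ (src e)` for the torus coordinate `τ_e = res (annProd Z e)`;
`Torus2.exists_coboundary_of_pow` (Frobenius is bijective on `k`) gives (c).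
-/
import Mathlib
import Fermat.Agent.ORD.ANN.SemiRed3
import Fermat.Agent.ORD.CHAINMODEL.Torus2
import Fermat.Prelude.Def_AlgebraicCurve_BaseChangeGalois

set_option autoImplicit false
set_option linter.unusedSectionVars false
set_option linter.style.longLine false

namespace Fermat.Agent.ORD.ANN.Inertial3

open AlgebraicCurve Fermat.Agent.X0.FF Fermat.Agent.RR.LSpace Fermat.Agent.MW.EMB.Value6
open Fermat.Agent.ORD.ANN.Side3 Fermat.Agent.ORD.ANN.Node3 Fermat.Agent.ORD.ANN.SemiRed3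
open Fermat.Agent.ORD.CHAINMODEL.Torus2

noncomputable section

variable {L k F : Type*} [Field L] [Field k] [Field F] [Algebra L F]
variable {B : Base L k} {HL : LHyp L F} {V : Type*} {Ft : V → Type*}
  [∀ v, Field (Ft v)] [∀ v, Algebra k (Ft v)] {E : Type*}

/-- **Inertial automorphisms** of a semistable datum. -/
structure Inertial (𝔻 : SemiRed B HL Ft E) (σ : SemilinearAut L F) : Prop where
  val_base : ∀ z : L, B.A.valuation (SemilinearAut.baseAut σ z) = B.A.valuation z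
  map_G : ∀ v (y : F), y ∈ (𝔻.side v).G → σ • y ∈ (𝔻.side v).G
  red_smul : ∀ v (y : F) (hy : y ∈ (𝔻.side v).G),
    (𝔻.side v).red ⟨σ • y, map_G v y hy⟩ = (𝔻.side v).red ⟨y, hy⟩

namespace Inertial

variable {𝔻 : SemiRed B HL Ft E} {σ : SemilinearAut L F} (hσ : Inertial 𝔻 σ)
include hσ

/-- a normalisation of `φ` is carried to a normalisation of `σ φ`, with the same reduction. -/
theorem isNorm_smul (v : V) {c : L} {φ : F} (h : (𝔻.side v).IsNorm c φ) :
    (𝔻.side v).IsNorm (SemilinearAut.baseAut σ c) (σ • φ) ∧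
      (𝔻.side v).nred (SemilinearAut.baseAut σ c) (σ • φ) = (𝔻.side v).nred c φ := by
  have e : algebraMap L F (SemilinearAut.baseAut σ c) * (σ • φ) = σ • (algebraMap L F c * φ) := by
    rw [smul_mul', SemilinearAut.smul_algebraMap]
  have hmem : algebraMap L F (SemilinearAut.baseAut σ c) * (σ • φ) ∈ (𝔻.side v).G := by
    rw [e]; exact hσ.map_G v _ h.1
  have hred : (𝔻.side v).red ⟨_, hmem⟩ = (𝔻.side v).red ⟨_, h.1⟩ := by
    rw [← hσ.red_smul v _ h.1]
    congr 1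
    exact Subtype.ext e
  exact ⟨⟨hmem, by rw [hred]; exact h.2⟩, by rw [(𝔻.side v).nred_of_mem hmem, hred, h.nred_eq]⟩

/-- `σ φ / φ` is a unit of every Gauss ring with constant reduction. -/
theorem exists_const_red (v : V) {φ : F} (hφ : φ ≠ 0) :
    ∃ ζ : k, ζ ≠ 0 ∧ (𝔻.side v).IsNorm 1 (σ • φ * φ⁻¹) ∧
      (𝔻.side v).nred 1 (σ • φ * φ⁻¹) = algebraMap k (Ft v) ζ := by
  obtain ⟨c, hc⟩ := (𝔻.side v).exists_isNorm hφ
  have hc0 := hc.c_ne_zero
  have h1 := (hσ.isNorm_smul v hc).1.mul hc.inv.1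
  have h1r : (𝔻.side v).nred (SemilinearAut.baseAut σ c * c⁻¹) (σ • φ * φ⁻¹) = 1 := by
    rw [h1.2, (hσ.isNorm_smul v hc).2, hc.inv.2, mul_inv_cancel₀ hc.nred_ne_zero]
  have hu : B.IsU (SemilinearAut.baseAut σ c * c⁻¹) := by
    rw [Base.IsU, map_mul, map_inv₀, hσ.val_base,
      mul_inv_cancel₀ ((Valuation.ne_zero_iff _).mpr hc0)]
  have h2 := h1.1.of_isU_mul hu.inv
  rw [inv_mul_cancel₀ hu.ne_zero, h1r, mul_one] at h2
  exact ⟨_, hu.inv.resL_ne_zero, h2.1, h2.2⟩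

end Inertial

/-! ### supports -/

section Supp

variable (𝔻 : SemiRed B HL Ft E)

theorem support_divOf_eq {f : F} (hf : f ≠ 0) {Z : Divisor L F} {n : ℤ} (hn : n ≠ 0)
    (h : ∀ P, P.ord f = n * Z P) : (divOf HL hf).support = Z.support := by
  ext P
  rw [Finsupp.mem_support_iff, Finsupp.mem_support_iff, divOf_apply, h P]
  exact mul_ne_zero_iff.trans ⟨fun h' => h'.2, fun h' => ⟨hn, h'⟩⟩

open Classical in
theorem node_supp_eq (e : E) {f : F} (hf : f ≠ 0) {Z : Divisor L F} {n : ℤ} (hn : n ≠ 0)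
    (h : ∀ P, P.ord f = n * Z P) :
    (𝔻.node e).supp hf = Z.support.filter (fun P => P ∈ (𝔻.node e).ann) := by
  ext P
  rw [NodeChart.mem_supp, Finset.mem_filter, Finsupp.mem_support_iff, h P]
  constructor
  · rintro ⟨h1, h2⟩
    exact ⟨fun h0 => h1 (by rw [h0, mul_zero]), h2⟩
  · rintro ⟨h1, h2⟩
    exact ⟨mul_ne_zero hn h1, h2⟩

end Supp

/-! ### the main theorem -/

/-- **The twist data of `σ • Dx - Dx`** (finding #335 §4): a tuple of nonzero constants `d v` such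
that `Z := σ • Dx - Dx` and `h v := d v` satisfy the hypotheses (a), (b1), (b2), (c) of the twisted NS
lemma. -/
theorem exists_twist_data (𝔻 : SemiRed B HL Ft E)
    {p : ℕ} [Fact p.Prime] [CharP k p] [PerfectRing k p]
    {σ : SemilinearAut L F} (hσ : Inertial 𝔻 σ)
    (Dx : Divisor L F) (m : ℕ) (fx : F) (hfx : fx ≠ 0)
    (hdiv : ∀ P, (p : ℤ) ^ m * Dx P = P.ord fx) :
    ∃ d : V → k, (∀ v, d v ≠ 0) ∧
      (∀ v Q, 𝔻.NonBranch v Q → 𝔻.fibSum (σ • Dx - Dx) v Q = 0) ∧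
      (∀ e, 𝔻.annSum (σ • Dx - Dx) e = 0) ∧ (∀ e, B.IsU (𝔻.annProd (σ • Dx - Dx) e)) ∧
      ∀ e, d (𝔻.tgt e) = B.resL (𝔻.annProd (σ • Dx - Dx) e) * d (𝔻.src e) := by
  classical
  have hp : (p : ℤ) ^ m ≠ 0 := pow_ne_zero _ (by exact_mod_cast (Fact.out : p.Prime).ne_zero)
  set Z : Divisor L F := σ • Dx - Dx with hZ
  -- the function `f = σ fx / fx`
  set f : F := σ • fx * fx⁻¹ with hf
  have hσfx : σ • fx ≠ 0 := by
    rw [SemilinearAut.smul_def]
    exact (map_ne_zero _).mpr hfx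
  have hf0 : f ≠ 0 := mul_ne_zero hσfx (inv_ne_zero hfx)
  have hord : ∀ P, P.ord f = (p : ℤ) ^ m * Z P := by
    intro P
    have h1 : P.ord (σ • fx) = (σ⁻¹ • P).ord fx := by
      have := SemilinearAut.ord_smul σ (σ⁻¹ • P) fx
      rwa [smul_inv_smul] at this
    rw [hf, P.ord_mul hσfx (inv_ne_zero hfx), P.ord_inv, h1, ← hdiv, ← hdiv, hZ,
      Finsupp.sub_apply, SemilinearAut.divisor_smul_apply]
    ring
  -- constant reductions
  choose ζ hζ0 hζN hζr using fun v => hσ.exists_const_red v hfx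
  have hordζ : ∀ v (Q : Place k (Ft v)), Q.ord ((𝔻.side v).nred 1 f) = 0 := by
    intro v Q
    rw [hζr v, ffp_ord_algebraMap]
  -- (a)
  have ha : ∀ v Q, 𝔻.NonBranch v Q → 𝔻.fibSum Z v Q = 0 := by
    intro v Q hb
    have h1 := 𝔻.compat v hf0 (hζN v) Q hb.1 hb.2
    rw [hordζ v Q, support_divOf_eq hf0 hp hord] at h1
    have h2 : ∑ P ∈ Z.support.filter (fun P => 𝔻.r P = some ⟨v, Q⟩), P.ord f =
        (p : ℤ) ^ m * 𝔻.fibSum Z v Q := by
      rw [SemiRed.fibSum, Finset.mul_sum]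
      exact Finset.sum_congr rfl fun P _ => hord P
    rw [h2] at h1
    exact (mul_eq_zero.mp h1).resolve_left hp
  -- (b1)
  have hb1 : ∀ e, 𝔻.annSum Z e = 0 := by
    intro e
    have h1 := (𝔻.node e).slope_add hf0 (hζN (𝔻.src e)) (hζN (𝔻.tgt e))
    rw [hordζ, hordζ, node_supp_eq 𝔻 e hf0 hp hord, add_zero] at h1
    have h2 : ∑ P ∈ Z.support.filter (fun P => P ∈ (𝔻.node e).ann), P.ord f =
        (p : ℤ) ^ m * 𝔻.annSum Z e := by
      rw [SemiRed.annSum, Finset.mul_sum]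
      exact Finset.sum_congr rfl fun P _ => hord P
    rw [h2] at h1
    exact (mul_eq_zero.mp h1.symm).resolve_left hp
  -- (N3) for `f`
  have hN3 : ∀ e, B.IsU (𝔻.annProd Z e ^ p ^ m) ∧
      ζ (𝔻.tgt e) = B.resL (𝔻.annProd Z e ^ p ^ m) * ζ (𝔻.src e) := by
    intro e
    have h1 := (𝔻.node e).lead_jump hf0 (hζN (𝔻.src e)) (hζN (𝔻.tgt e)) (hordζ _ _) (hordζ _ _)
    have e1 : (1 : L) / 1 * ∏ P ∈ (𝔻.node e).supp hf0, (𝔻.node e).a P ^ P.ord f =
        𝔻.annProd Z e ^ p ^ m := by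
      rw [div_one, one_mul, node_supp_eq 𝔻 e hf0 hp hord, SemiRed.annProd, ← Finset.prod_pow]
      refine Finset.prod_congr rfl fun P _ => ?_
      rw [hord P, mul_comm, zpow_mul, ← zpow_natCast ((𝔻.node e).a P ^ Z P) (p ^ m)]
      norm_cast
    rw [e1, hζr, hζr, valF_algebraMap, valF_algebraMap] at h1
    exact h1
  -- (b2)
  have hb2 : ∀ e, B.IsU (𝔻.annProd Z e) := by
    intro e
    have h1 : B.A.valuation (𝔻.annProd Z e) ^ p ^ m = 1 := by
      have := (hN3 e).1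
      rwa [Base.IsU, map_pow] at this
    have hpm : p ^ m ≠ 0 := pow_ne_zero _ (Fact.out : p.Prime).ne_zero
    rcases lt_trichotomy (B.A.valuation (𝔻.annProd Z e)) 1 with h | h | h
    · exact absurd h1 (ne_of_lt (pow_lt_one₀ zero_le h hpm))
    · exact h
    · exact absurd h1 (ne_of_gt (one_lt_pow₀ h hpm))
  -- the torus cocycle is a coboundary
  have hcob : ∀ e, B.resL (𝔻.annProd Z e) ^ p ^ m * ζ (𝔻.src e) = ζ (𝔻.tgt e) := by
    intro e
    rw [(hN3 e).2]
    congr 1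
    have hmem := (hb2 e).mem
    clear_value Z
    induction p ^ m with
    | zero => rw [pow_zero, pow_zero, B.resL_one]
    | succ n ih =>
      rw [pow_succ, pow_succ, B.resL_mul (B.A.pow_mem hmem n) hmem, ih]
  obtain ⟨d, hd0, hd⟩ := exists_coboundary_of_pow (p := p) 𝔻.tgt 𝔻.src
    (fun e => B.resL (𝔻.annProd Z e)) ζ m hζ0 hcob
  exact ⟨d, hd0, ha, hb1, hb2, fun e => (hd e).symm⟩

/-- **Property (i), divisor form.** -/
theorem exists_effective_of_inertial (𝔻 : SemiRed B HL Ft E) (hTw : 𝔻.TwistedNS)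
    {p : ℕ} [Fact p.Prime] [CharP k p] [PerfectRing k p]
    {σ : SemilinearAut L F} (hσ : Inertial 𝔻 σ)
    (D0 : Divisor L F) (hD0 : 0 ≤ D0) (hsm : ∀ P, D0 P ≠ 0 → 𝔻.Smooth P)
    (hNS : 𝔻.NonSpecial (fun v Q => 𝔻.fibSum D0 v Q))
    (hRR : ∀ D : Divisor L F, Divisor.degree D = Divisor.degree D0 →
      ∃ (φ : F) (hφ : φ ≠ 0), 0 ≤ D + divOf HL hφ)
    (Dx : Divisor L F) (m : ℕ) (fx : F) (hfx : fx ≠ 0)
    (hdiv : ∀ P, (p : ℤ) ^ m * Dx P = P.ord fx) :
    ∃ (φ : F) (hφ : φ ≠ 0), 0 ≤ (σ • Dx - Dx) + D0 + divOf HL hφ ∧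
      (∀ P, ((σ • Dx - Dx) + D0 + divOf HL hφ) P ≠ 0 → 𝔻.Smooth P) ∧
      ∀ v Q, 𝔻.fibSum ((σ • Dx - Dx) + D0 + divOf HL hφ) v Q = 𝔻.fibSum D0 v Q := by
  obtain ⟨d, hd0, ha, hb1, hb2, hc⟩ := exists_twist_data 𝔻 hσ Dx m fx hfx hdiv
  have hZdeg : Divisor.degree (σ • Dx - Dx) = 0 := by
    rw [map_sub, SemilinearAut.degree_smul, sub_self]
  refine hTw D0 hD0 hsm hNS hRR _ hZdeg (fun v => algebraMap k (Ft v) (d v))
    (fun v => (map_ne_zero _).mpr (hd0 v)) (fun e => ffp_ord_algebraMap _ _)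
    (fun e => ffp_ord_algebraMap _ _) ?_ hb1 hb2 ?_
  · intro v Q hb
    rw [ha v Q hb, ffp_ord_algebraMap]
  · intro e
    rw [valF_algebraMap, valF_algebraMap]
    exact hc e

end

end Fermat.Agent.ORD.ANN.Inertial3
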