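/-
Programme ORD (S33), chapter ANN (O5), helper2: **the twisted non-special lemma** (finding #335 §3;
the nodal `exists_kap_eq`, shared by KER-N and by property (i) of O5).

Stated against a SMALL hypothesis bundle `Input` (so that it depends neither on the internals of the
annulus calculus nor on the final names of `SemiRedDatum`):

* components `v : Comp` with Gauss rings `G v ⊂ F`, reductions `red v : G v →+* Ft v`, `norm`;
* points of the normalised special fibre `Pt = Σ v, Place k (Ft v)`; the two branches `bs e`, `bt e : Pt`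
  of every node `e`; the specialisation `r : Place L F → Option Pt` (`none` = the place lies in an
  annulus), with the fibre-sum compatibility `compat` at the non-branch points;
* annuli `ann e`, the coordinate values `a e P = x_e(P)` with `|π e| < |a e P| < 1`;
* the three CONCLUSIONS (N1), (N2), (N3) of the annulus calculus, as fields `n1`, `n2`, `n3`.

Main result `exists_effective`: for a non-special system of `g` smooth centres (tuple form, zero
components allowed), Riemann's inequality `hRR`, a divisor `Z` of degree `0` and a tuple `h` of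
nonzero functions on the components, units at the branches, with
(a) the smooth part of `Z` reduces to `div h` off the branches,
(b) `Z` has degree `0` and unit "torus coordinate" `∏ a_P ^ Z(P)` on every annulus,
(c) the branch values of `h` differ by the residue of that torus coordinate,
there is `φ ≠ 0` such that `E = Z + D0 + div φ` is effective, supported on smooth places, with
reduction exactly `D~0`.
-/
import Mathlib
import Fermat.Agent.RR.LSpace
import Fermat.Agent.MW.EMB.Value6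

set_option autoImplicit false
set_option linter.unusedSectionVars false
set_option linter.style.longLine false

namespace Fermat.Agent.ORD.ANN.TwistedNS2

open AlgebraicCurve Fermat.Agent.X0.FF Fermat.Agent.RR.LSpace Fermat.Agent.MW.EMB.Value6

noncomputable section

/-! ### auxiliary definitions (used inside the structure) -/

section Aux

variable {L F : Type*} [Field L] [Field F] [Algebra L F]

/-- reduction of an arbitrary element (`0` outside the Gauss ring). -/
def redOf {R : Type*} [Zero R] (G : Subring F) (red : G → R) (y : F) : R := by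
  classical exact if h : y ∈ G then red ⟨y, h⟩ else 0

/-- `c` normalises `φ` on the component with Gauss ring `G`: `c φ ∈ G` with nonzero reduction. -/
def IsNormG {R : Type*} [Zero R] (G : Subring F) (red : G → R) (c : L) (φ : F) : Prop :=
  algebraMap L F c * φ ∈ G ∧ redOf G red (algebraMap L F c * φ) ≠ 0

/-- the value `a_P` on the annulus, `1` outside. -/
def aaG (ann : Set (Place L F)) (a : Place L F → L) (P : Place L F) : L := by
  classical exact if P ∈ ann then a P else 1

/-- the degree of a divisor on an annulus. -/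
def annSumG (ann : Set (Place L F)) (D : Divisor L F) : ℤ := by
  classical exact D.sum fun P n => if P ∈ ann then n else 0

/-- the torus coordinate `∏_{P ∈ ann} a_P ^ D(P)` of a divisor. -/
def annProdG (ann : Set (Place L F)) (a : Place L F → L) (D : Divisor L F) : L :=
  D.prod fun P n => aaG ann a P ^ n

end Aux

/-! ### products of integer powers over a divisor -/

section ProdLemmas

variable {α Γ₀ : Type*} [LinearOrderedCommGroupWithZero Γ₀]

/-- `∏ a ^ f x = a ^ ∑ f x` for `a ≠ 0`. -/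
theorem prod_zpow_eq_zpow_sum {G₀ : Type*} [CommGroupWithZero G₀] {a : G₀} (ha : a ≠ 0)
    (s : Finset α) (f : α → ℤ) : ∏ x ∈ s, a ^ f x = a ^ ∑ x ∈ s, f x := by
  classical
  induction s using Finset.induction_on with
  | empty => simp
  | insert x s hx ih => rw [Finset.prod_insert hx, Finset.sum_insert hx, ih, zpow_add₀ ha]

/-- a product of nonnegative powers of elements `≤ 1` is `≤ 1`. -/
theorem finsupp_prod_zpow_le_one (D : α →₀ ℤ) (hD : ∀ x, 0 ≤ D x) (f : α → Γ₀)
    (hf0 : ∀ x, f x ≠ 0) (hf1 : ∀ x, f x ≤ 1) : (D.prod fun x n => f x ^ n) ≤ 1 := by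
  rw [Finsupp.prod]
  exact Finset.prod_le_one' fun x _ =>
    zpow_le_one₀ (zero_lt_iff.mpr (hf0 x)) (hf1 x) (hD x)

/-- equality case: the divisor vanishes where `f < 1`. -/
theorem finsupp_prod_zpow_eq_one (D : α →₀ ℤ) (hD : ∀ x, 0 ≤ D x) (f : α → Γ₀)
    (hf0 : ∀ x, f x ≠ 0) (hf1 : ∀ x, f x ≤ 1) (h1 : (D.prod fun x n => f x ^ n) = 1)
    (x : α) (hx : f x < 1) : D x = 0 := by
  classical
  by_contra hne
  have hpos : 0 < D x := lt_of_le_of_ne (hD x) (Ne.symm hne)
  have hmem : x ∈ D.support := Finsupp.mem_support_iff.mpr hne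
  rw [Finsupp.prod, ← Finset.mul_prod_erase _ _ hmem] at h1
  have h2 : f x ^ D x < 1 := zpow_lt_one₀ (zero_lt_iff.mpr (hf0 x)) hx hpos
  have h3 : ∏ y ∈ D.support.erase x, f y ^ D y ≤ 1 :=
    Finset.prod_le_one' fun y _ => zpow_le_one₀ (zero_lt_iff.mpr (hf0 y)) (hf1 y) (hD y)
  have := mul_lt_one_of_lt_of_le h2 h3
  rw [h1] at this
  exact lt_irrefl _ this

end ProdLemmas

/-! ### the hypothesis bundle -/

/-- The data consumed by the twisted non-special lemma. -/
structure Input (L F k : Type*) [Field L] [Field F] [Algebra L F] [Field k]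
    (Comp Edge : Type*) (Ft : Comp → Type*) [∀ v, Field (Ft v)] [∀ v, Algebra k (Ft v)] where
  A : ValuationSubring L
  res : A →+* k
  res_eq_zero_iff : ∀ a : A, res a = 0 ↔ ¬ IsUnit a
  HL : LHyp L F
  Hk : ∀ v, LHyp k (Ft v)
  /-- Gauss rings -/
  G : Comp → Subring F
  red : ∀ v, G v →+* Ft v
  const_mem : ∀ v (a : A), algebraMap L F (a : L) ∈ G v
  red_const : ∀ v (a : A),
    red v ⟨algebraMap L F (a : L), const_mem v a⟩ = algebraMap k (Ft v) (res a)
  norm : ∀ v (y : F), y ≠ 0 → ∃ c : L, IsNormG (G v) (red v) c y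
  /-- specialisation (`none` = in an annulus) -/
  r : Place L F → Option (Σ v, Place k (Ft v))
  /-- the two branches of a node -/
  bs : Edge → Σ v, Place k (Ft v)
  bt : Edge → Σ v, Place k (Ft v)
  r_ne_bs : ∀ P e, r P ≠ some (bs e)
  r_ne_bt : ∀ P e, r P ≠ some (bt e)
  compat : ∀ v (g : G v), red v g ≠ 0 → ∀ D : Divisor L F, (∀ P, D P = P.ord (g : F)) →
    ∀ Q : Place k (Ft v), (∀ e, bs e ≠ ⟨v, Q⟩) → (∀ e, bt e ≠ ⟨v, Q⟩) →
      Finsupp.mapDomain r D (some ⟨v, Q⟩) = Q.ord (red v g)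
  /-- annuli -/
  ann : Edge → Set (Place L F)
  ann_none : ∀ e P, P ∈ ann e → r P = none
  none_ann : ∀ P, r P = none → ∃ e, P ∈ ann e
  π : Edge → L
  π_ne : ∀ e, π e ≠ 0
  π_lt : ∀ e, A.valuation (π e) < 1
  a : Edge → Place L F → L
  a_lt : ∀ e P, P ∈ ann e → A.valuation (a e P) < 1
  π_lt_a : ∀ e P, P ∈ ann e → A.valuation (π e) < A.valuation (a e P)
  /-- (N1): slopes at the two branches add up to the degree on the annulus. -/
  n1 : ∀ e (φ : F) (c c' : L) (D : Divisor L F), (∀ P, D P = P.ord φ) →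
    IsNormG (G (bs e).1) (red (bs e).1) c φ → IsNormG (G (bt e).1) (red (bt e).1) c' φ →
    (bs e).2.ord (redOf (G (bs e).1) (red (bs e).1) (algebraMap L F c * φ)) +
      (bt e).2.ord (redOf (G (bt e).1) (red (bt e).1) (algebraMap L F c' * φ)) = annSumG (ann e) D
  /-- (N2): the jump of the Gauss valuations. -/
  n2 : ∀ e (φ : F) (c c' : L) (D : Divisor L F), (∀ P, D P = P.ord φ) →
    IsNormG (G (bs e).1) (red (bs e).1) c φ → IsNormG (G (bt e).1) (red (bt e).1) c' φ →
    A.valuation (c / c') * A.valuation (π e) ^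
        ((bt e).2.ord (redOf (G (bt e).1) (red (bt e).1) (algebraMap L F c' * φ))) =
      A.valuation (annProdG (ann e) (a e) D)
  /-- (N3): the branch values, when both slopes vanish. -/
  n3 : ∀ e (φ : F) (c c' : L) (D : Divisor L F), (∀ P, D P = P.ord φ) →
    IsNormG (G (bs e).1) (red (bs e).1) c φ → IsNormG (G (bt e).1) (red (bt e).1) c' φ →
    (bs e).2.ord (redOf (G (bs e).1) (red (bs e).1) (algebraMap L F c * φ)) = 0 →
    (bt e).2.ord (redOf (G (bt e).1) (red (bt e).1) (algebraMap L F c' * φ)) = 0 →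
    ∃ u : A, (u : L) = c' / c * annProdG (ann e) (a e) D ∧
      valF (Hk (bt e).1) (bt e).2 (redOf (G (bt e).1) (red (bt e).1) (algebraMap L F c' * φ)) =
        valF (Hk (bs e).1) (bs e).2 (redOf (G (bs e).1) (red (bs e).1) (algebraMap L F c * φ)) *
          res u

variable {L F k : Type*} [Field L] [Field F] [Algebra L F] [Field k]
  {Comp Edge : Type*} {Ft : Comp → Type*} [∀ v, Field (Ft v)] [∀ v, Algebra k (Ft v)]

namespace Input

variable (I : Input L F k Comp Edge Ft)

/-- points of the normalised special fibre -/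
abbrev Pt (_I : Input L F k Comp Edge Ft) : Type _ := Σ v, Place k (Ft v)

/-- reduction of an arbitrary element on the component `v`. -/
def nred (v : Comp) (c : L) (φ : F) : Ft v := redOf (I.G v) (I.red v) (algebraMap L F c * φ)

/-- `c` normalises `φ` on `v`. -/
def IsNorm (v : Comp) (c : L) (φ : F) : Prop := IsNormG (I.G v) (I.red v) c φ

theorem isNorm_iff (v : Comp) (c : L) (φ : F) :
    I.IsNorm v c φ ↔ algebraMap L F c * φ ∈ I.G v ∧ I.nred v c φ ≠ 0 := Iff.rfl

theorem nred_of_mem {v : Comp} {c : L} {φ : F} (h : algebraMap L F c * φ ∈ I.G v) :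
    I.nred v c φ = I.red v ⟨algebraMap L F c * φ, h⟩ := by
  rw [nred, redOf, dif_pos h]

theorem nred_of_not_mem {v : Comp} {c : L} {φ : F} (h : algebraMap L F c * φ ∉ I.G v) :
    I.nred v c φ = 0 := by
  rw [nred, redOf, dif_neg h]

variable {I}

theorem IsNorm.nred_ne_zero {v : Comp} {c : L} {φ : F} (h : I.IsNorm v c φ) :
    I.nred v c φ ≠ 0 := h.2

theorem IsNorm.ne_zero {v : Comp} {c : L} {φ : F} (h : I.IsNorm v c φ) : c ≠ 0 := by
  rintro rfl
  apply h.2
  have h0 : algebraMap L F (0 : L) * φ = 0 := by rw [map_zero, zero_mul]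
  rw [redOf, dif_pos h.1]
  have : (⟨algebraMap L F (0 : L) * φ, h.1⟩ : I.G v) = 0 := Subtype.ext h0
  rw [this, map_zero]

theorem IsNorm.fun_ne_zero {v : Comp} {c : L} {φ : F} (h : I.IsNorm v c φ) : φ ≠ 0 := by
  rintro rfl
  apply h.2
  have h0 : algebraMap L F c * (0 : F) = 0 := mul_zero _
  rw [redOf, dif_pos h.1]
  have : (⟨algebraMap L F c * (0 : F), h.1⟩ : I.G v) = 0 := Subtype.ext h0
  rw [this, map_zero]

/-- multiplying a normalising constant by an element of `A`. -/
theorem nred_mul_of_mem {v : Comp} {c : L} {φ : F} (h : algebraMap L F c * φ ∈ I.G v) (u : I.A) :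
    algebraMap L F ((u : L) * c) * φ ∈ I.G v ∧
      I.nred v ((u : L) * c) φ = algebraMap k (Ft v) (I.res u) * I.nred v c φ := by
  have e1 : algebraMap L F ((u : L) * c) * φ = algebraMap L F (u : L) * (algebraMap L F c * φ) := by
    rw [map_mul, mul_assoc]
  have hm : algebraMap L F ((u : L) * c) * φ ∈ I.G v := by
    rw [e1]; exact (I.G v).mul_mem (I.const_mem v u) h
  refine ⟨hm, ?_⟩
  rw [I.nred_of_mem hm, I.nred_of_mem h, ← I.red_const v u, ← map_mul]
  congr 1
  exact Subtype.ext e1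

/-- a unit multiple of a normalising constant is normalising. -/
theorem IsNorm.unit_mul {v : Comp} {c : L} {φ : F} (h : I.IsNorm v c φ) {u : I.A} (hu : IsUnit u) :
    I.IsNorm v ((u : L) * c) φ := by
  obtain ⟨hm, hred⟩ := nred_mul_of_mem h.1 u
  refine ⟨hm, ?_⟩
  show I.nred v ((u : L) * c) φ ≠ 0
  rw [hred]
  refine mul_ne_zero ?_ h.2
  rw [Ne, map_eq_zero, I.res_eq_zero_iff]
  exact not_not.mpr hu

/-- a constant of strictly smaller absolute value kills the reduction. -/
theorem IsNorm.nred_eq_zero_of_lt {v : Comp} {c c0 : L} {φ : F} (h : I.IsNorm v c φ)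
    (hlt : I.A.valuation c0 < I.A.valuation c) :
    algebraMap L F c0 * φ ∈ I.G v ∧ I.nred v c0 φ = 0 := by
  have hc := h.ne_zero
  have hval : I.A.valuation (c0 / c) < 1 := by
    rw [map_div₀]
    exact (div_lt_one₀ (by rw [Valuation.pos_iff]; exact hc)).mpr hlt
  have hmem : c0 / c ∈ I.A := I.A.mem_of_valuation_le_one _ hval.le
  obtain ⟨hm, hred⟩ := nred_mul_of_mem h.1 ⟨c0 / c, hmem⟩
  have e : c0 / c * c = c0 := div_mul_cancel₀ _ hc
  simp only [e] at hm hred
  refine ⟨hm, ?_⟩
  rw [hred]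
  have : I.res ⟨c0 / c, hmem⟩ = 0 := by
    rw [I.res_eq_zero_iff, I.A.valuation_eq_one_iff]
    exact hval.ne
  rw [this, map_zero, zero_mul]

/-- two normalising constants have the same absolute value. -/
theorem IsNorm.val_eq {v : Comp} {c c' : L} {φ : F} (h : I.IsNorm v c φ) (h' : I.IsNorm v c' φ) :
    I.A.valuation c = I.A.valuation c' := by
  rcases lt_trichotomy (I.A.valuation c) (I.A.valuation c') with hlt | heq | hgt
  · exact absurd (h'.nred_eq_zero_of_lt hlt).2 h.2
  · exact heq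
  · exact absurd (h.nred_eq_zero_of_lt hgt).2 h'.2

/-- a constant of the same absolute value as a normalising one is normalising. -/
theorem IsNorm.of_val_eq {v : Comp} {c c0 : L} {φ : F} (h : I.IsNorm v c φ)
    (heq : I.A.valuation c0 = I.A.valuation c) : I.IsNorm v c0 φ := by
  have hc := h.ne_zero
  have hval : I.A.valuation (c0 / c) = 1 := by
    rw [map_div₀, heq]
    exact div_self (by rw [Ne, Valuation.zero_iff]; exact hc)
  have hmem : c0 / c ∈ I.A := I.A.mem_of_valuation_le_one _ hval.le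
  have hu : IsUnit (⟨c0 / c, hmem⟩ : I.A) := (I.A.valuation_eq_one_iff _).mpr hval
  have := h.unit_mul hu
  have e : c0 / c * c = c0 := div_mul_cancel₀ _ hc
  simpa only [e] using this

variable (I)

/-! ### annulus sums and products -/

/-- the value `a_P` on the annulus `e`, `1` outside. -/
def aa (e : Edge) (P : Place L F) : L := aaG (I.ann e) (I.a e) P

/-- the degree of `D` on the annulus `e`. -/
def annSum (e : Edge) (D : Divisor L F) : ℤ := annSumG (I.ann e) D

/-- the torus coordinate of `D` on the annulus `e`. -/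
def annProd (e : Edge) (D : Divisor L F) : L := annProdG (I.ann e) (I.a e) D

theorem aa_of_mem {e : Edge} {P : Place L F} (h : P ∈ I.ann e) : I.aa e P = I.a e P := by
  rw [aa, aaG, if_pos h]

theorem aa_of_not_mem {e : Edge} {P : Place L F} (h : P ∉ I.ann e) : I.aa e P = 1 := by
  rw [aa, aaG, if_neg h]

theorem a_ne_zero {e : Edge} {P : Place L F} (h : P ∈ I.ann e) : I.a e P ≠ 0 := by
  intro h0
  have := I.π_lt_a e P h
  rw [h0, map_zero] at this
  exact not_lt_zero this

theorem aa_ne_zero (e : Edge) (P : Place L F) : I.aa e P ≠ 0 := by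
  by_cases h : P ∈ I.ann e
  · rw [I.aa_of_mem h]; exact I.a_ne_zero h
  · rw [I.aa_of_not_mem h]; exact one_ne_zero

theorem annSum_eq (e : Edge) (D : Divisor L F) :
    I.annSum e D = D.sum fun P n => by classical exact if P ∈ I.ann e then n else 0 := rfl

theorem annProd_eq (e : Edge) (D : Divisor L F) :
    I.annProd e D = D.prod fun P n => I.aa e P ^ n := rfl

theorem annSum_add (e : Edge) (D D' : Divisor L F) :
    I.annSum e (D + D') = I.annSum e D + I.annSum e D' := by
  classical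
  rw [annSum_eq, annSum_eq, annSum_eq]
  refine Finsupp.sum_add_index' (fun P => ?_) (fun P b₁ b₂ => ?_)
  · split_ifs <;> rfl
  · split_ifs <;> simp

theorem annSum_zero (e : Edge) : I.annSum e (0 : Divisor L F) = 0 := by
  rw [annSum_eq, Finsupp.sum_zero_index]

theorem annSum_neg (e : Edge) (D : Divisor L F) : I.annSum e (-D) = -I.annSum e D := by
  have h := I.annSum_add e D (-D)
  rw [add_neg_cancel, annSum_zero] at h
  omega

theorem annSum_sub (e : Edge) (D D' : Divisor L F) :
    I.annSum e (D - D') = I.annSum e D - I.annSum e D' := by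
  rw [sub_eq_add_neg, annSum_add, annSum_neg, sub_eq_add_neg]

theorem annSum_eq_zero_of (e : Edge) (D : Divisor L F) (h : ∀ P ∈ I.ann e, D P = 0) :
    I.annSum e D = 0 := by
  classical
  rw [annSum_eq, Finsupp.sum]
  refine Finset.sum_eq_zero fun P _ => ?_
  split_ifs with hP
  · exact h P hP
  · rfl

theorem annProd_add (e : Edge) (D D' : Divisor L F) :
    I.annProd e (D + D') = I.annProd e D * I.annProd e D' := by
  rw [annProd_eq, annProd_eq, annProd_eq]
  exact Finsupp.prod_add_index' (fun P => zpow_zero _) (fun P b₁ b₂ => zpow_add₀ (I.aa_ne_zero e P) _ _)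

theorem annProd_zero (e : Edge) : I.annProd e (0 : Divisor L F) = 1 := by
  rw [annProd_eq, Finsupp.prod_zero_index]

theorem annProd_ne_zero (e : Edge) (D : Divisor L F) : I.annProd e D ≠ 0 := by
  rw [annProd_eq, Finsupp.prod]
  exact Finset.prod_ne_zero_iff.mpr fun P _ => zpow_ne_zero _ (I.aa_ne_zero e P)

theorem annProd_neg (e : Edge) (D : Divisor L F) : I.annProd e (-D) = (I.annProd e D)⁻¹ := by
  have h := I.annProd_add e D (-D)
  rw [add_neg_cancel, annProd_zero] at h
  exact eq_inv_of_mul_eq_one_right h.symm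

theorem annProd_sub (e : Edge) (D D' : Divisor L F) :
    I.annProd e (D - D') = I.annProd e D / I.annProd e D' := by
  rw [sub_eq_add_neg, annProd_add, annProd_neg, div_eq_mul_inv]

theorem annProd_eq_one_of (e : Edge) (D : Divisor L F) (h : ∀ P ∈ I.ann e, D P = 0) :
    I.annProd e D = 1 := by
  rw [annProd_eq, Finsupp.prod]
  refine Finset.prod_eq_one fun P _ => ?_
  by_cases hP : P ∈ I.ann e
  · rw [h P hP, zpow_zero]
  · rw [I.aa_of_not_mem hP, one_zpow]

/-- the valuation of the torus coordinate. -/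
theorem val_annProd (e : Edge) (D : Divisor L F) :
    I.A.valuation (I.annProd e D) = D.prod fun P n => I.A.valuation (I.aa e P) ^ n := by
  rw [annProd_eq, map_finsuppProd]
  refine Finsupp.prod_congr fun P _ => ?_
  rw [map_zpow₀]

theorem val_aa_le_one (e : Edge) (P : Place L F) : I.A.valuation (I.aa e P) ≤ 1 := by
  by_cases h : P ∈ I.ann e
  · rw [I.aa_of_mem h]; exact (I.a_lt e P h).le
  · rw [I.aa_of_not_mem h, map_one]

/-- for an effective divisor the torus coordinate has absolute value `≤ 1` … -/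
theorem val_annProd_le_one (e : Edge) (E : Divisor L F) (hE : ∀ P, 0 ≤ E P) :
    I.A.valuation (I.annProd e E) ≤ 1 := by
  rw [val_annProd]
  exact finsupp_prod_zpow_le_one E hE _
    (fun P => by rw [Ne, Valuation.zero_iff]; exact I.aa_ne_zero e P) (I.val_aa_le_one e)

/-- … with equality only if the divisor avoids the annulus. -/
theorem eq_zero_of_val_annProd_eq_one (e : Edge) (E : Divisor L F) (hE : ∀ P, 0 ≤ E P)
    (h1 : I.A.valuation (I.annProd e E) = 1) (P : Place L F) (hP : P ∈ I.ann e) : E P = 0 := by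
  rw [val_annProd] at h1
  refine finsupp_prod_zpow_eq_one E hE _
    (fun P => by rw [Ne, Valuation.zero_iff]; exact I.aa_ne_zero e P) (I.val_aa_le_one e) h1 P ?_
  rw [I.aa_of_mem hP]
  exact I.a_lt e P hP

/-- the mirrored product `∏ |π / a_P| ^ D(P) = |π| ^ deg / |∏ a_P ^ D(P)|`. -/
def annQ (e : Edge) (D : Divisor L F) : I.A.ValueGroup :=
  I.A.valuation (I.π e) ^ I.annSum e D / I.A.valuation (I.annProd e D)

/-- `π / a_P` on the annulus, `1` outside. -/
def bb (e : Edge) (P : Place L F) : L := by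
  classical exact if P ∈ I.ann e then I.π e / I.a e P else 1

theorem bb_of_mem {e : Edge} {P : Place L F} (h : P ∈ I.ann e) : I.bb e P = I.π e / I.a e P := by
  rw [bb, if_pos h]

theorem bb_of_not_mem {e : Edge} {P : Place L F} (h : P ∉ I.ann e) : I.bb e P = 1 := by
  rw [bb, if_neg h]

theorem bb_ne_zero (e : Edge) (P : Place L F) : I.bb e P ≠ 0 := by
  by_cases h : P ∈ I.ann e
  · rw [I.bb_of_mem h]; exact div_ne_zero (I.π_ne e) (I.a_ne_zero h)
  · rw [I.bb_of_not_mem h]; exact one_ne_zero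

theorem val_bb_le_one (e : Edge) (P : Place L F) : I.A.valuation (I.bb e P) ≤ 1 := by
  by_cases h : P ∈ I.ann e
  · rw [I.bb_of_mem h, map_div₀]
    exact (div_le_one₀ (by rw [Valuation.pos_iff]; exact I.a_ne_zero h)).mpr (I.π_lt_a e P h).le
  · rw [I.bb_of_not_mem h, map_one]

theorem val_bb_lt_one {e : Edge} {P : Place L F} (h : P ∈ I.ann e) :
    I.A.valuation (I.bb e P) < 1 := by
  rw [I.bb_of_mem h, map_div₀]
  exact (div_lt_one₀ (by rw [Valuation.pos_iff]; exact I.a_ne_zero h)).mpr (I.π_lt_a e P h)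

theorem annQ_eq_prod (e : Edge) (D : Divisor L F) :
    I.annQ e D = D.prod fun P n => I.A.valuation (I.bb e P) ^ n := by
  classical
  have hπ : I.A.valuation (I.π e) ≠ 0 := by rw [Ne, Valuation.zero_iff]; exact I.π_ne e
  rw [annQ, val_annProd, annSum_eq, Finsupp.prod, Finsupp.prod, Finsupp.sum,
    ← prod_zpow_eq_zpow_sum hπ, ← Finset.prod_div_distrib]
  refine Finset.prod_congr rfl fun P _ => ?_
  by_cases h : P ∈ I.ann e
  · rw [if_pos h, I.aa_of_mem h, I.bb_of_mem h, map_div₀, div_zpow]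
  · rw [if_neg h, I.aa_of_not_mem h, I.bb_of_not_mem h, map_one, one_zpow, zpow_zero, div_one]

theorem annQ_le_one (e : Edge) (E : Divisor L F) (hE : ∀ P, 0 ≤ E P) : I.annQ e E ≤ 1 := by
  rw [annQ_eq_prod]
  exact finsupp_prod_zpow_le_one E hE _
    (fun P => by rw [Ne, Valuation.zero_iff]; exact I.bb_ne_zero e P) (I.val_bb_le_one e)

theorem eq_zero_of_annQ_eq_one (e : Edge) (E : Divisor L F) (hE : ∀ P, 0 ≤ E P)
    (h1 : I.annQ e E = 1) (P : Place L F) (hP : P ∈ I.ann e) : E P = 0 := by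
  rw [annQ_eq_prod] at h1
  exact finsupp_prod_zpow_eq_one E hE _
    (fun P => by rw [Ne, Valuation.zero_iff]; exact I.bb_ne_zero e P) (I.val_bb_le_one e) h1 P
    (I.val_bb_lt_one hP)

theorem exists_isNorm (v : Comp) {φ : F} (hφ : φ ≠ 0) : ∃ c : L, I.IsNorm v c φ := I.norm v φ hφ

/-! ### the divisor of `φ` in terms of `E`, on an annulus -/

/-- the two fundamental relations on an edge, for `E = Z + D0' + div φ` with `Z` of degree `0` and unit
torus coordinate on the annulus and `D0'` off the annulus. -/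
theorem edge_relations (e : Edge) {φ : F} (_hφ : φ ≠ 0) {c c' : L}
    (hc : I.IsNorm (I.bs e).1 c φ) (hc' : I.IsNorm (I.bt e).1 c' φ)
    (Z D0' E : Divisor L F) (hE : ∀ P, E P = Z P + D0' P + P.ord φ)
    (hD0 : ∀ P ∈ I.ann e, D0' P = 0) (hb1 : I.annSum e Z = 0)
    (hb2 : I.A.valuation (I.annProd e Z) = 1) :
    I.A.valuation (c / c') * I.A.valuation (I.π e) ^ ((I.bt e).2.ord (I.nred (I.bt e).1 c' φ)) =
        I.A.valuation (I.annProd e E) ∧
      I.A.valuation (c' / c) * I.A.valuation (I.π e) ^ ((I.bs e).2.ord (I.nred (I.bs e).1 c φ)) =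
        I.annQ e E := by
  have hdiv : ∀ P, (E - Z - D0') P = P.ord φ := fun P => by
    rw [Finsupp.sub_apply, Finsupp.sub_apply, hE P]; ring
  have h1 := I.n1 e φ c c' (E - Z - D0') hdiv hc hc'
  have h2 := I.n2 e φ c c' (E - Z - D0') hdiv hc hc'
  have hS : annSumG (I.ann e) (E - Z - D0') = I.annSum e E := by
    show I.annSum e (E - Z - D0') = _
    rw [annSum_sub, annSum_sub, hb1, I.annSum_eq_zero_of e D0' hD0, sub_zero, sub_zero]
  have hP : I.A.valuation (annProdG (I.ann e) (I.a e) (E - Z - D0')) =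
      I.A.valuation (I.annProd e E) := by
    show I.A.valuation (I.annProd e (E - Z - D0')) = _
    rw [annProd_sub, annProd_sub, I.annProd_eq_one_of e D0' hD0, div_one, map_div₀, hb2, div_one]
  rw [hS] at h1
  rw [hP] at h2
  refine ⟨h2, ?_⟩
  -- the mirrored relation
  have hπ : I.A.valuation (I.π e) ≠ 0 := by rw [Ne, Valuation.zero_iff]; exact I.π_ne e
  have hc0 : I.A.valuation c ≠ 0 := by rw [Ne, Valuation.zero_iff]; exact hc.ne_zero
  have hc'0 : I.A.valuation c' ≠ 0 := by rw [Ne, Valuation.zero_iff]; exact hc'.ne_zero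
  have hA0 : I.A.valuation (I.annProd e E) ≠ 0 := by
    rw [Ne, Valuation.zero_iff]; exact I.annProd_ne_zero e E
  set s := (I.bs e).2.ord (I.nred (I.bs e).1 c φ) with hs
  set s' := (I.bt e).2.ord (I.nred (I.bt e).1 c' φ) with hs'
  have h1' : s = I.annSum e E - s' := by
    have : s + s' = I.annSum e E := h1
    omega
  rw [annQ, h1', zpow_sub₀ hπ, ← h2, map_div₀, map_div₀]
  field_simp
  rfl

/-! ### slopes on a component of maximal Gauss norm -/

theorem annQ_eq_one_of (e : Edge) (E : Divisor L F) (h : ∀ P ∈ I.ann e, E P = 0) :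
    I.annQ e E = 1 := by
  rw [annQ, I.annSum_eq_zero_of e E h, I.annProd_eq_one_of e E h, zpow_zero, map_one, div_one]

/-- source side: if `|c| ≤ |c'|` the slope at the source branch is `≥ 0`, and it vanishes only if
`|c'| = |c|` and `E` avoids the annulus. -/
theorem slope_src (e : Edge) {φ : F} (hφ : φ ≠ 0) {c c' : L}
    (hc : I.IsNorm (I.bs e).1 c φ) (hc' : I.IsNorm (I.bt e).1 c' φ)
    (Z D0' E : Divisor L F) (hE : ∀ P, E P = Z P + D0' P + P.ord φ) (hEnn : ∀ P, 0 ≤ E P)
    (hD0 : ∀ P ∈ I.ann e, D0' P = 0) (hb1 : I.annSum e Z = 0)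
    (hb2 : I.A.valuation (I.annProd e Z) = 1) (hle : I.A.valuation c ≤ I.A.valuation c') :
    0 ≤ (I.bs e).2.ord (I.nred (I.bs e).1 c φ) ∧
      ((I.bs e).2.ord (I.nred (I.bs e).1 c φ) = 0 →
        I.A.valuation c' = I.A.valuation c ∧ ∀ P ∈ I.ann e, E P = 0) := by
  obtain ⟨-, hF⟩ := I.edge_relations e hφ hc hc' Z D0' E hE hD0 hb1 hb2
  have hπ0 : I.A.valuation (I.π e) ≠ 0 := by rw [Ne, Valuation.zero_iff]; exact I.π_ne e
  have hc0 : I.A.valuation c ≠ 0 := by rw [Ne, Valuation.zero_iff]; exact hc.ne_zero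
  have hQ := I.annQ_le_one e E hEnn
  have hge : 1 ≤ I.A.valuation (c' / c) := by
    rw [map_div₀]
    exact (one_le_div₀ (zero_lt_iff.mpr hc0)).mpr hle
  set s := (I.bs e).2.ord (I.nred (I.bs e).1 c φ) with hs
  constructor
  · by_contra hneg
    have hlt : s < 0 := not_le.mp hneg
    have h1 : 1 < I.A.valuation (I.π e) ^ s :=
      one_lt_zpow_of_neg₀ (zero_lt_iff.mpr hπ0) (I.π_lt e) hlt
    have h2 : 1 < I.A.valuation (c' / c) * I.A.valuation (I.π e) ^ s :=
      one_lt_mul_of_le_of_lt hge h1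
    rw [hF] at h2
    exact absurd hQ (not_le.mpr h2)
  · intro h0
    rw [h0, zpow_zero, mul_one] at hF
    have h1 : I.A.valuation (c' / c) = 1 := le_antisymm (hF ▸ hQ) hge
    refine ⟨?_, I.eq_zero_of_annQ_eq_one e E hEnn (by rw [← hF, h1])⟩
    rw [map_div₀] at h1
    exact (div_eq_one_iff_eq hc0).mp h1

/-- target side. -/
theorem slope_tgt (e : Edge) {φ : F} (hφ : φ ≠ 0) {c c' : L}
    (hc : I.IsNorm (I.bs e).1 c φ) (hc' : I.IsNorm (I.bt e).1 c' φ)
    (Z D0' E : Divisor L F) (hE : ∀ P, E P = Z P + D0' P + P.ord φ) (hEnn : ∀ P, 0 ≤ E P)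
    (hD0 : ∀ P ∈ I.ann e, D0' P = 0) (hb1 : I.annSum e Z = 0)
    (hb2 : I.A.valuation (I.annProd e Z) = 1) (hle : I.A.valuation c' ≤ I.A.valuation c) :
    0 ≤ (I.bt e).2.ord (I.nred (I.bt e).1 c' φ) ∧
      ((I.bt e).2.ord (I.nred (I.bt e).1 c' φ) = 0 →
        I.A.valuation c = I.A.valuation c' ∧ ∀ P ∈ I.ann e, E P = 0) := by
  obtain ⟨hF, -⟩ := I.edge_relations e hφ hc hc' Z D0' E hE hD0 hb1 hb2
  have hπ0 : I.A.valuation (I.π e) ≠ 0 := by rw [Ne, Valuation.zero_iff]; exact I.π_ne e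
  have hc0 : I.A.valuation c' ≠ 0 := by rw [Ne, Valuation.zero_iff]; exact hc'.ne_zero
  have hQ := I.val_annProd_le_one e E hEnn
  have hge : 1 ≤ I.A.valuation (c / c') := by
    rw [map_div₀]
    exact (one_le_div₀ (zero_lt_iff.mpr hc0)).mpr hle
  set s := (I.bt e).2.ord (I.nred (I.bt e).1 c' φ) with hs
  constructor
  · by_contra hneg
    have hlt : s < 0 := not_le.mp hneg
    have h1 : 1 < I.A.valuation (I.π e) ^ s :=
      one_lt_zpow_of_neg₀ (zero_lt_iff.mpr hπ0) (I.π_lt e) hlt
    have h2 : 1 < I.A.valuation (c / c') * I.A.valuation (I.π e) ^ s :=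
      one_lt_mul_of_le_of_lt hge h1
    rw [hF] at h2
    exact absurd hQ (not_le.mpr h2)
  · intro h0
    rw [h0, zpow_zero, mul_one] at hF
    have h1 : I.A.valuation (c / c') = 1 := le_antisymm (hF ▸ hQ) hge
    refine ⟨?_, I.eq_zero_of_val_annProd_eq_one e E hEnn (by rw [← hF, h1])⟩
    rw [map_div₀] at h1
    exact (div_eq_one_iff_eq hc0).mp h1

/-- conversely, equal Gauss norms and no point of `E` in the annulus force both slopes to vanish. -/
theorem slopes_eq_zero (e : Edge) {φ : F} (hφ : φ ≠ 0) {c c' : L}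
    (hc : I.IsNorm (I.bs e).1 c φ) (hc' : I.IsNorm (I.bt e).1 c' φ)
    (Z D0' E : Divisor L F) (hE : ∀ P, E P = Z P + D0' P + P.ord φ)
    (hD0 : ∀ P ∈ I.ann e, D0' P = 0) (hb1 : I.annSum e Z = 0)
    (hb2 : I.A.valuation (I.annProd e Z) = 1) (heq : I.A.valuation c = I.A.valuation c')
    (hEann : ∀ P ∈ I.ann e, E P = 0) :
    (I.bs e).2.ord (I.nred (I.bs e).1 c φ) = 0 ∧ (I.bt e).2.ord (I.nred (I.bt e).1 c' φ) = 0 := by
  obtain ⟨hF2, hF1⟩ := I.edge_relations e hφ hc hc' Z D0' E hE hD0 hb1 hb2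
  have hc0 : I.A.valuation c ≠ 0 := by rw [Ne, Valuation.zero_iff]; exact hc.ne_zero
  have hc'0 : I.A.valuation c' ≠ 0 := by rw [Ne, Valuation.zero_iff]; exact hc'.ne_zero
  rw [I.annQ_eq_one_of e E hEann, map_div₀, heq, div_self hc'0, one_mul] at hF1
  rw [I.annProd_eq_one_of e E hEann, map_one, map_div₀, heq, div_self hc'0, one_mul] at hF2
  exact ⟨(zpow_eq_one_iff_right₀ zero_le (I.π_lt e).ne).mp hF1,
    (zpow_eq_one_iff_right₀ zero_le (I.π_lt e).ne).mp hF2⟩

/-! ### the twisted non-special lemma -/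

/-- no place reduces to a branch. -/
theorem mapDomain_branch_eq_zero (E : Divisor L F) (b' : Σ v, Place k (Ft v))
    (hb' : (∃ e, I.bs e = b') ∨ ∃ e, I.bt e = b') : Finsupp.mapDomain I.r E (some b') = 0 := by
  classical
  rw [Finsupp.mapDomain, Finsupp.sum_apply, Finsupp.sum]
  refine Finset.sum_eq_zero fun P _ => ?_
  rw [Finsupp.single_apply, if_neg]
  rcases hb' with ⟨e, rfl⟩ | ⟨e, rfl⟩
  · exact I.r_ne_bs P e
  · exact I.r_ne_bt P e

/-- the image of an effective divisor is effective. -/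
theorem mapDomain_nonneg' (E : Divisor L F) (hE : ∀ P, 0 ≤ E P) (x : Option (Σ v, Place k (Ft v))) :
    0 ≤ Finsupp.mapDomain I.r E x := by
  classical
  rw [Finsupp.mapDomain, Finsupp.sum_apply, Finsupp.sum]
  refine Finset.sum_nonneg fun P _ => ?_
  rw [Finsupp.single_apply]
  split_ifs
  · exact hE P
  · exact le_rfl

/-- **The twisted non-special lemma** (finding #335 §3), for an arbitrary effective smooth `D0` with
non-special reduction. -/
theorem exists_effective_gen [Finite Comp] [Nonempty Comp]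
    (D0 : Divisor L F) (hD0nn : ∀ P, 0 ≤ D0 P) (hD0sm : ∀ P, I.r P = none → D0 P = 0)
    (hns : ∀ f : ∀ v, Ft v,
      (∀ (v : Comp) (Q : Place k (Ft v)),
        -(Finsupp.mapDomain I.r D0 (some ⟨v, Q⟩)) ≤ Q.ord (f v)) →
      (∀ e, valF (I.Hk (I.bs e).1) (I.bs e).2 (f (I.bs e).1) =
        valF (I.Hk (I.bt e).1) (I.bt e).2 (f (I.bt e).1)) →
      ∃ c : k, ∀ v, f v = algebraMap k (Ft v) c)
    (Z : Divisor L F) (hRR : ∃ f : F, f ≠ 0 ∧ ∀ P, -((Z + D0) P) ≤ P.ord f)
    (h : ∀ v, Ft v) (hh0 : ∀ v, h v ≠ 0)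
    (hbs : ∀ e, (I.bs e).2.ord (h (I.bs e).1) = 0) (hbt : ∀ e, (I.bt e).2.ord (h (I.bt e).1) = 0)
    (ha : ∀ (v : Comp) (Q : Place k (Ft v)), (∀ e, I.bs e ≠ ⟨v, Q⟩) → (∀ e, I.bt e ≠ ⟨v, Q⟩) →
      Finsupp.mapDomain I.r Z (some ⟨v, Q⟩) = Q.ord (h v))
    (hb1 : ∀ e, I.annSum e Z = 0) (hb2 : ∀ e, I.A.valuation (I.annProd e Z) = 1)
    (hc : ∀ e, ∃ u : I.A, (u : L) = I.annProd e Z ∧
      valF (I.Hk (I.bt e).1) (I.bt e).2 (h (I.bt e).1) =
        valF (I.Hk (I.bs e).1) (I.bs e).2 (h (I.bs e).1) * I.res u) :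
    ∃ φ : F, φ ≠ 0 ∧ ∃ E : Divisor L F, (∀ P, E P = Z P + D0 P + P.ord φ) ∧ (∀ P, 0 ≤ E P) ∧
      (∀ P, I.r P = none → E P = 0) ∧
      ∀ b', Finsupp.mapDomain I.r E (some b') = Finsupp.mapDomain I.r D0 (some b') := by
  classical
  have : Fintype Comp := Fintype.ofFinite Comp
  -- Riemann's inequality
  obtain ⟨φ, hφ, hφE⟩ := hRR
  refine ⟨φ, hφ, ?_⟩
  set E : Divisor L F := Z + D0 + divOf I.HL hφ with hEdef
  have hE : ∀ P, E P = Z P + D0 P + P.ord φ := fun P => by
    rw [hEdef, Finsupp.add_apply, Finsupp.add_apply, divOf_apply]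
  have hEnn : ∀ P, 0 ≤ E P := fun P => by
    rw [hE P]
    have := hφE P
    rw [Finsupp.add_apply] at this
    omega
  refine ⟨E, hE, hEnn, ?_⟩
  have hD0ann : ∀ e, ∀ P ∈ I.ann e, D0 P = 0 := fun e P hP =>
    hD0sm P (I.ann_none e P hP)
  -- normalising constants and the components of maximal Gauss norm
  choose cN hcN using fun v => I.exists_isNorm v hφ
  obtain ⟨v0, -, hv0⟩ := Finset.exists_min_image Finset.univ (fun v => I.A.valuation (cN v))
    Finset.univ_nonempty
  set c0 := cN v0 with hc0def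
  have hmin : ∀ v, I.A.valuation c0 ≤ I.A.valuation (cN v) := fun v => hv0 v (Finset.mem_univ v)
  -- on `Vmin` the constant `c0` normalises
  have hnormMin : ∀ v, I.A.valuation (cN v) = I.A.valuation c0 → I.IsNorm v c0 φ := fun v hv =>
    (hcN v).of_val_eq hv.symm
  have hzeroOff : ∀ v, I.A.valuation (cN v) ≠ I.A.valuation c0 → I.nred v c0 φ = 0 := fun v hv =>
    ((hcN v).nred_eq_zero_of_lt (lt_of_le_of_ne (hmin v) (Ne.symm hv))).2
  -- the tuple `η`
  set η : ∀ v, Ft v := fun v =>
    if I.A.valuation (cN v) = I.A.valuation c0 then h v * I.nred v c0 φ else 0 with hηdef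
  have hη_in : ∀ v, I.A.valuation (cN v) = I.A.valuation c0 → η v = h v * I.nred v c0 φ :=
    fun v hv => by rw [hηdef]; exact if_pos hv
  have hη_out : ∀ v, I.A.valuation (cN v) ≠ I.A.valuation c0 → η v = 0 :=
    fun v hv => by rw [hηdef]; exact if_neg hv
  -- slopes at the branches for components in `Vmin`
  have hsrc : ∀ e, I.A.valuation (cN (I.bs e).1) = I.A.valuation c0 →
      0 ≤ (I.bs e).2.ord (I.nred (I.bs e).1 c0 φ) ∧
      ((I.bs e).2.ord (I.nred (I.bs e).1 c0 φ) = 0 →
        I.A.valuation (cN (I.bt e).1) = I.A.valuation c0 ∧ ∀ P ∈ I.ann e, E P = 0) := fun e hv =>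
    I.slope_src e hφ (hnormMin _ hv) (hcN (I.bt e).1) Z D0 E hE hEnn (hD0ann e) (hb1 e) (hb2 e)
      (hmin _)
  have htgt : ∀ e, I.A.valuation (cN (I.bt e).1) = I.A.valuation c0 →
      0 ≤ (I.bt e).2.ord (I.nred (I.bt e).1 c0 φ) ∧
      ((I.bt e).2.ord (I.nred (I.bt e).1 c0 φ) = 0 →
        I.A.valuation (cN (I.bs e).1) = I.A.valuation c0 ∧ ∀ P ∈ I.ann e, E P = 0) := fun e hv =>
    I.slope_tgt e hφ (hcN (I.bs e).1) (hnormMin _ hv) Z D0 E hE hEnn (hD0ann e) (hb1 e) (hb2 e)
      (hmin _)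
  -- orders of `η` off the branches
  have hordη : ∀ (v : Comp) (Q : Place k (Ft v)), I.A.valuation (cN v) = I.A.valuation c0 →
      (∀ e, I.bs e ≠ ⟨v, Q⟩) → (∀ e, I.bt e ≠ ⟨v, Q⟩) →
      Q.ord (η v) = Finsupp.mapDomain I.r E (some ⟨v, Q⟩) -
        Finsupp.mapDomain I.r D0 (some ⟨v, Q⟩) := by
    intro v Q hv hQs hQt
    have hn := hnormMin v hv
    have hcomp := I.compat v ⟨algebraMap L F c0 * φ, hn.1⟩
      (by rw [← I.nred_of_mem hn.1]; exact hn.2) (divOf I.HL hφ)
      (fun P => by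
        rw [divOf_apply]
        show P.ord φ = P.ord (algebraMap L F c0 * φ)
        rw [P.ord_mul ((map_ne_zero _).mpr hn.ne_zero) hφ, ffp_ord_algebraMap, zero_add])
      Q hQs hQt
    rw [← I.nred_of_mem hn.1] at hcomp
    rw [hη_in v hv, Q.ord_mul (hh0 v) hn.nred_ne_zero, ← ha v Q hQs hQt, ← hcomp,
      hEdef, Finsupp.mapDomain_add, Finsupp.mapDomain_add, Finsupp.add_apply, Finsupp.add_apply]
    ring
  -- `η` is a section of `O(D~0)` on the nodal curve
  have hηns1 : ∀ (v : Comp) (Q : Place k (Ft v)),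
      -(Finsupp.mapDomain I.r D0 (some ⟨v, Q⟩)) ≤ Q.ord (η v) := by
    intro v Q
    have hrd := I.mapDomain_nonneg' D0 hD0nn (some ⟨v, Q⟩)
    by_cases hv : I.A.valuation (cN v) = I.A.valuation c0
    · by_cases hQs : ∃ e, I.bs e = ⟨v, Q⟩
      · obtain ⟨e, he⟩ := hQs
        have hv' : I.A.valuation (cN (I.bs e).1) = I.A.valuation c0 := by rw [he]; exact hv
        have h1 := (hsrc e hv').1
        have h2 := hbs e
        have h3 : (I.bs e).2.ord (η (I.bs e).1) =
            (I.bs e).2.ord (h (I.bs e).1) + (I.bs e).2.ord (I.nred (I.bs e).1 c0 φ) := by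
          rw [hη_in _ hv', (I.bs e).2.ord_mul (hh0 _) (hnormMin _ hv').nred_ne_zero]
        have h4 : 0 ≤ (I.bs e).2.ord (η (I.bs e).1) := by omega
        have h5 : (⟨(I.bs e).1, (I.bs e).2⟩ : Σ v, Place k (Ft v)) = ⟨v, Q⟩ := he
        have h6 : 0 ≤ Q.ord (η v) := by
          cases h5; exact h4
        omega
      · by_cases hQt : ∃ e, I.bt e = ⟨v, Q⟩
        · obtain ⟨e, he⟩ := hQt
          have hv' : I.A.valuation (cN (I.bt e).1) = I.A.valuation c0 := by rw [he]; exact hv
          have h1 := (htgt e hv').1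
          have h2 := hbt e
          have h3 : (I.bt e).2.ord (η (I.bt e).1) =
              (I.bt e).2.ord (h (I.bt e).1) + (I.bt e).2.ord (I.nred (I.bt e).1 c0 φ) := by
            rw [hη_in _ hv', (I.bt e).2.ord_mul (hh0 _) (hnormMin _ hv').nred_ne_zero]
          have h4 : 0 ≤ (I.bt e).2.ord (η (I.bt e).1) := by omega
          have h5 : (⟨(I.bt e).1, (I.bt e).2⟩ : Σ v, Place k (Ft v)) = ⟨v, Q⟩ := he
          have h6 : 0 ≤ Q.ord (η v) := by
            cases h5; exact h4
          omega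
        · push Not at hQs hQt
          rw [hordη v Q hv hQs hQt]
          have := I.mapDomain_nonneg' E hEnn (some ⟨v, Q⟩)
          omega
    · rw [hη_out v hv, Place.ord_zero]
      omega
  have hηns2 : ∀ e, valF (I.Hk (I.bs e).1) (I.bs e).2 (η (I.bs e).1) =
      valF (I.Hk (I.bt e).1) (I.bt e).2 (η (I.bt e).1) := by
    intro e
    by_cases hall : I.A.valuation (cN (I.bs e).1) = I.A.valuation c0 ∧
        I.A.valuation (cN (I.bt e).1) = I.A.valuation c0 ∧ ∀ P ∈ I.ann e, E P = 0
    · -- both components in `Vmin`, no point of `E` in the annulus: (N3) + (c)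
      obtain ⟨hvs, hvt, hEann⟩ := hall
      have hns := hnormMin _ hvs
      have hnt := hnormMin _ hvt
      obtain ⟨hs0, ht0⟩ := I.slopes_eq_zero e hφ hns hnt Z D0 E hE (hD0ann e) (hb1 e) (hb2 e) rfl
        hEann
      have hdiv : ∀ P, (E - Z - D0) P = P.ord φ := fun P => by
        rw [Finsupp.sub_apply, Finsupp.sub_apply, hE P]; ring
      obtain ⟨u, hu, huval⟩ := I.n3 e φ c0 c0 (E - Z - D0) hdiv hns hnt hs0 ht0
      obtain ⟨uZ, huZ, huZval⟩ := hc e
      have hc0ne : c0 ≠ 0 := hns.ne_zero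
      have huu : u * uZ = 1 := by
        apply Subtype.ext
        rw [I.A.coe_mul, hu, huZ]
        show c0 / c0 * I.annProd e (E - Z - D0) * I.annProd e Z = 1
        rw [div_self hc0ne, one_mul, annProd_sub, annProd_sub, I.annProd_eq_one_of e E hEann,
          I.annProd_eq_one_of e D0 (hD0ann e), div_one, one_div,
          inv_mul_cancel₀ (I.annProd_ne_zero e Z)]
      have hres : I.res u * I.res uZ = 1 := by rw [← map_mul, huu, map_one]
      have hmems : h (I.bs e).1 ∈ (I.bs e).2.toValuationSubring :=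
        ffp_mem_of_ord_nonneg _ (hbs e).ge
      have hmemt : h (I.bt e).1 ∈ (I.bt e).2.toValuationSubring :=
        ffp_mem_of_ord_nonneg _ (hbt e).ge
      have hmems' : I.nred (I.bs e).1 c0 φ ∈ (I.bs e).2.toValuationSubring :=
        ffp_mem_of_ord_nonneg _ hs0.ge
      have hmemt' : I.nred (I.bt e).1 c0 φ ∈ (I.bt e).2.toValuationSubring :=
        ffp_mem_of_ord_nonneg _ ht0.ge
      rw [hη_in _ hvs, hη_in _ hvt, valF_mul _ _ hmems hmems', valF_mul _ _ hmemt hmemt', huZval]
      have huval' : valF (I.Hk (I.bt e).1) (I.bt e).2 (I.nred (I.bt e).1 c0 φ) =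
          valF (I.Hk (I.bs e).1) (I.bs e).2 (I.nred (I.bs e).1 c0 φ) * I.res u := huval
      rw [huval']
      calc valF (I.Hk (I.bs e).1) (I.bs e).2 (h (I.bs e).1) *
            valF (I.Hk (I.bs e).1) (I.bs e).2 (I.nred (I.bs e).1 c0 φ)
          = valF (I.Hk (I.bs e).1) (I.bs e).2 (h (I.bs e).1) *
            valF (I.Hk (I.bs e).1) (I.bs e).2 (I.nred (I.bs e).1 c0 φ) *
              (I.res u * I.res uZ) := by rw [hres, mul_one]
        _ = _ := by ring
    · -- otherwise both values vanish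
      have hzs : valF (I.Hk (I.bs e).1) (I.bs e).2 (η (I.bs e).1) = 0 := by
        by_cases hvs : I.A.valuation (cN (I.bs e).1) = I.A.valuation c0
        · have hn := hnormMin _ hvs
          obtain ⟨h1, h2⟩ := hsrc e hvs
          have hpos : 0 < (I.bs e).2.ord (I.nred (I.bs e).1 c0 φ) := by
            rcases h1.lt_or_eq with hlt | heq
            · exact hlt
            · exact absurd ⟨hvs, (h2 heq.symm).1, (h2 heq.symm).2⟩ hall
          have hmems : h (I.bs e).1 ∈ (I.bs e).2.toValuationSubring :=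
            ffp_mem_of_ord_nonneg _ (hbs e).ge
          have hmems' : I.nred (I.bs e).1 c0 φ ∈ (I.bs e).2.toValuationSubring :=
            ffp_mem_of_ord_nonneg _ hpos.le
          rw [hη_in _ hvs, valF_mul _ _ hmems hmems',
            (valF_eq_zero_iff _ _ hmems').mpr (Or.inr hpos), mul_zero]
        · rw [hη_out _ hvs, valF_zero]
      have hzt : valF (I.Hk (I.bt e).1) (I.bt e).2 (η (I.bt e).1) = 0 := by
        by_cases hvt : I.A.valuation (cN (I.bt e).1) = I.A.valuation c0
        · have hn := hnormMin _ hvt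
          obtain ⟨h1, h2⟩ := htgt e hvt
          have hpos : 0 < (I.bt e).2.ord (I.nred (I.bt e).1 c0 φ) := by
            rcases h1.lt_or_eq with hlt | heq
            · exact hlt
            · exact absurd ⟨(h2 heq.symm).1, hvt, (h2 heq.symm).2⟩ hall
          have hmemt : h (I.bt e).1 ∈ (I.bt e).2.toValuationSubring :=
            ffp_mem_of_ord_nonneg _ (hbt e).ge
          have hmemt' : I.nred (I.bt e).1 c0 φ ∈ (I.bt e).2.toValuationSubring :=
            ffp_mem_of_ord_nonneg _ hpos.le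
          rw [hη_in _ hvt, valF_mul _ _ hmemt hmemt',
            (valF_eq_zero_iff _ _ hmemt').mpr (Or.inr hpos), mul_zero]
        · rw [hη_out _ hvt, valF_zero]
      rw [hzs, hzt]
  -- non-speciality: `η` is constant
  obtain ⟨ct, hct⟩ := hns η hηns1 hηns2
  have hη0 : η v0 ≠ 0 := by
    rw [hη_in v0 rfl]
    exact mul_ne_zero (hh0 v0) (hnormMin v0 rfl).nred_ne_zero
  have hct0 : ct ≠ 0 := by
    intro h0
    apply hη0
    rw [hct v0, h0, map_zero]
  have hall : ∀ v, I.A.valuation (cN v) = I.A.valuation c0 := by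
    intro v
    by_contra hv
    have := hη_out v hv
    rw [hct v, map_eq_zero] at this
    exact hct0 this
  have hordzero : ∀ (v : Comp) (Q : Place k (Ft v)), Q.ord (η v) = 0 := fun v Q => by
    rw [hct v, ffp_ord_algebraMap]
  -- no point of `E` in the annuli
  have hEann : ∀ e, ∀ P ∈ I.ann e, E P = 0 := by
    intro e
    have hvs := hall (I.bs e).1
    have h3 : (I.bs e).2.ord (η (I.bs e).1) =
        (I.bs e).2.ord (h (I.bs e).1) + (I.bs e).2.ord (I.nred (I.bs e).1 c0 φ) := by
      rw [hη_in _ hvs, (I.bs e).2.ord_mul (hh0 _) (hnormMin _ hvs).nred_ne_zero]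
    rw [hordzero, hbs e, zero_add] at h3
    exact ((hsrc e hvs).2 h3.symm).2
  refine ⟨fun P hP => ?_, fun b' => ?_⟩
  · obtain ⟨e, he⟩ := I.none_ann P hP
    exact hEann e P he
  · obtain ⟨v, Q⟩ := b'
    by_cases hQs : ∃ e, I.bs e = ⟨v, Q⟩
    · rw [I.mapDomain_branch_eq_zero E _ (Or.inl hQs),
        I.mapDomain_branch_eq_zero D0 _ (Or.inl hQs)]
    · by_cases hQt : ∃ e, I.bt e = ⟨v, Q⟩
      · rw [I.mapDomain_branch_eq_zero E _ (Or.inr hQt),
          I.mapDomain_branch_eq_zero D0 _ (Or.inr hQt)]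
      · push Not at hQs hQt
        have := hordη v Q (hall v) hQs hQt
        rw [hordzero] at this
        omega

/-! ### non-special systems -/

open Classical in
/-- A **non-special system** of `g` smooth centres on the nodal curve (tuple form: zero components
allowed). -/
structure NS (g : ℕ) where
  P : Fin g → Place L F
  b : Fin g → Σ v, Place k (Ft v)
  rP : ∀ i, I.r (P i) = some (b i)
  inj : Function.Injective b
  ns : ∀ f : ∀ v, Ft v,
    (∀ (v : Comp) (Q : Place k (Ft v)),
      -(if ∃ i, b i = ⟨v, Q⟩ then (1 : ℤ) else 0) ≤ Q.ord (f v)) →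
    (∀ e, valF (I.Hk (I.bs e).1) (I.bs e).2 (f (I.bs e).1) =
      valF (I.Hk (I.bt e).1) (I.bt e).2 (f (I.bt e).1)) →
    ∃ c : k, ∀ v, f v = algebraMap k (Ft v) c

namespace NS

variable {I} {g : ℕ} (S : I.NS g)

/-- the divisor of the centres. -/
def D0 : Divisor L F := ∑ i, Finsupp.single (S.P i) (1 : ℤ)

open Classical in
/-- the reduced divisor `D~0`. -/
def redDiv (b' : Σ v, Place k (Ft v)) : ℤ := if ∃ i, S.b i = b' then 1 else 0

theorem redDiv_nonneg (b' : Σ v, Place k (Ft v)) : 0 ≤ S.redDiv b' := by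
  classical
  rw [redDiv]; split_ifs <;> norm_num

theorem degree_D0 : Divisor.degree S.D0 = g := by
  rw [D0, map_sum]
  simp [degree_single I.HL]

theorem P_injective : Function.Injective S.P := by
  intro i j hij
  apply S.inj
  have h1 := S.rP i
  rw [hij, S.rP j] at h1
  exact (Option.some_injective _ h1).symm

theorem D0_apply (P : Place L F) : S.D0 P = by classical exact if ∃ i, S.P i = P then 1 else 0 := by
  classical
  rw [D0, Finsupp.finsetSum_apply]
  split_ifs with h
  · obtain ⟨i, rfl⟩ := h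
    rw [Finset.sum_eq_single i]
    · rw [Finsupp.single_eq_same]
    · intro j _ hji
      rw [Finsupp.single_eq_of_ne]
      exact fun h => hji (S.P_injective h).symm
    · intro h; exact absurd (Finset.mem_univ i) h
  · refine Finset.sum_eq_zero fun i _ => ?_
    rw [Finsupp.single_eq_of_ne]
    exact fun hi => h ⟨i, hi.symm⟩

theorem D0_nonneg (P : Place L F) : 0 ≤ S.D0 P := by
  classical
  rw [D0_apply]; split_ifs <;> norm_num

theorem D0_eq_zero_of_none {P : Place L F} (hP : I.r P = none) : S.D0 P = 0 := by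
  classical
  rw [D0_apply, if_neg]
  rintro ⟨i, rfl⟩
  rw [S.rP i] at hP
  exact Option.some_ne_none _ hP

theorem mapDomain_D0 (b' : Σ v, Place k (Ft v)) :
    Finsupp.mapDomain I.r S.D0 (some b') = S.redDiv b' := by
  classical
  rw [D0, Finsupp.mapDomain_finsetSum, Finsupp.finsetSum_apply, redDiv]
  simp only [Finsupp.mapDomain_single, S.rP]
  split_ifs with h
  · obtain ⟨i, rfl⟩ := h
    rw [Finset.sum_eq_single i]
    · rw [Finsupp.single_eq_same]
    · intro j _ hji
      rw [Finsupp.single_eq_of_ne]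
      exact fun h => hji (S.inj (Option.some_injective _ h)).symm
    · intro h; exact absurd (Finset.mem_univ i) h
  · refine Finset.sum_eq_zero fun i _ => ?_
    rw [Finsupp.single_eq_of_ne]
    exact fun hi => h ⟨i, (Option.some_injective _ hi).symm⟩

/-- **The twisted non-special lemma** for a non-special system of `g` centres. -/
theorem exists_effective [Finite Comp] [Nonempty Comp]
    (hRR : ∀ E : Divisor L F, Divisor.degree E = g → ∃ f : F, f ≠ 0 ∧ ∀ P, -(E P) ≤ P.ord f)
    (Z : Divisor L F) (hZ : Divisor.degree Z = 0)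
    (h : ∀ v, Ft v) (hh0 : ∀ v, h v ≠ 0)
    (hbs : ∀ e, (I.bs e).2.ord (h (I.bs e).1) = 0) (hbt : ∀ e, (I.bt e).2.ord (h (I.bt e).1) = 0)
    (ha : ∀ (v : Comp) (Q : Place k (Ft v)), (∀ e, I.bs e ≠ ⟨v, Q⟩) → (∀ e, I.bt e ≠ ⟨v, Q⟩) →
      Finsupp.mapDomain I.r Z (some ⟨v, Q⟩) = Q.ord (h v))
    (hb1 : ∀ e, I.annSum e Z = 0) (hb2 : ∀ e, I.A.valuation (I.annProd e Z) = 1)
    (hc : ∀ e, ∃ u : I.A, (u : L) = I.annProd e Z ∧
      valF (I.Hk (I.bt e).1) (I.bt e).2 (h (I.bt e).1) =
        valF (I.Hk (I.bs e).1) (I.bs e).2 (h (I.bs e).1) * I.res u) :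
    ∃ φ : F, φ ≠ 0 ∧ ∃ E : Divisor L F, (∀ P, E P = Z P + S.D0 P + P.ord φ) ∧ (∀ P, 0 ≤ E P) ∧
      (∀ P, I.r P = none → E P = 0) ∧ ∀ b', Finsupp.mapDomain I.r E (some b') = S.redDiv b' := by
  obtain ⟨φ, hφ, E, hE, hEnn, hEsm, hEr⟩ := I.exists_effective_gen S.D0 S.D0_nonneg
    (fun P hP => S.D0_eq_zero_of_none hP)
    (fun f hf1 hf2 => S.ns f (fun v Q => by
      have := hf1 v Q
      rw [S.mapDomain_D0] at this
      exact this) hf2)
    Z (hRR (Z + S.D0) (by rw [map_add, hZ, S.degree_D0, zero_add])) h hh0 hbs hbt ha hb1 hb2 hc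
  exact ⟨φ, hφ, E, hE, hEnn, hEsm, fun b' => by rw [hEr b', S.mapDomain_D0]⟩

end NS

end Input

end

end Fermat.Agent.ORD.ANN.TwistedNS2
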