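/-
Programme ORD (S33), chapter ANN (O5), helper2: **the twisted NS lemma for helper3's `SemiRed`**.

`toInput 𝔻` turns a provisional semistable datum `𝔻 : SemiRed B HL Ft E` (`ORD/ANN/SemiRed3`) into the
hypothesis bundle `TwistedNS2.Input` (the fields `n1`, `n2`, `n3` are `NodeChart.slope_add`,
`NodeChart.val_jump`, `NodeChart.lead_jump` of `ORD/ANN/Node3`), and

  `twistedNS 𝔻 : 𝔻.TwistedNS`

is `TwistedNS2.Input.exists_effective_gen` read through the dictionary
`fibSum = mapDomain r`, `annSum = annSumG`, `annProd = annProdG`.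
-/
import Mathlib
import Fermat.Agent.ORD.ANN.SemiRed3
import Fermat.Agent.ORD.ANN.TwistedNS2

set_option autoImplicit false
set_option linter.unusedSectionVars false
set_option linter.style.longLine false

namespace Fermat.Agent.ORD.ANN.TwistedNSAdapt2

open AlgebraicCurve Fermat.Agent.X0.FF Fermat.Agent.RR.LSpace Fermat.Agent.MW.EMB.Value6
open Fermat.Agent.ORD.ANN.Side3 Fermat.Agent.ORD.ANN.Node3 Fermat.Agent.ORD.ANN.SemiRed3
open Fermat.Agent.ORD.ANN.TwistedNS2
open Fermat.Agent.FF.RED.RedDatum7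

noncomputable section

variable {L k F : Type*} [Field L] [Field k] [Field F] [Algebra L F]

/-- cancellation in a commutative group with zero (the shape of `val_jump` after `slope_add`). -/
theorem cancel_aux {Γ : Type*} [CommGroupWithZero Γ] {X Y P P' A : Γ} (hY : Y ≠ 0) (hP : P ≠ 0)
    (hA : A ≠ 0) (h : Y * P = X * (P * P' / A)) : X / Y * P' = A := by
  have h3 : Y * A * P = X * P' * P := by
    calc Y * A * P = Y * P * A := by rw [mul_right_comm]
      _ = X * (P * P' / A) * A := by rw [h]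
      _ = X * (P * P' / A * A) := by rw [mul_assoc]
      _ = X * (P * P') := by rw [div_mul_cancel₀ _ hA]
      _ = X * P' * P := by rw [mul_comm P P', mul_assoc]
  have h4 := mul_right_cancel₀ hP h3
  rw [div_mul_eq_mul_div, div_eq_iff hY, mul_comm A Y]
  exact h4.symm

/-! ### dictionary for the auxiliary definitions -/

section Dict

variable {B : Base L k} {Ft : Type*} [Field Ft] [Algebra k Ft] (S : Side B F Ft)

theorem redOf_eq_nred (c : L) (φ : F) :
    redOf S.G S.red (algebraMap L F c * φ) = S.nred c φ := by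
  classical
  by_cases h : algebraMap L F c * φ ∈ S.G
  · rw [S.nred_of_mem h, redOf, dif_pos h]
  · rw [redOf, dif_neg h, Side.nred, dif_neg h]

theorem isNormG_iff (c : L) (φ : F) : IsNormG S.G S.red c φ ↔ S.IsNorm c φ := by
  constructor
  · rintro ⟨h1, h2⟩
    refine ⟨h1, ?_⟩
    rw [redOf_eq_nred, S.nred_of_mem h1] at h2
    exact h2
  · intro h
    refine ⟨h.mem, ?_⟩
    rw [redOf_eq_nred]
    exact h.nred_ne_zero

theorem annSumG_eq (ann : Set (Place L F)) (D : Divisor L F) :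
    annSumG ann D = by
      classical exact ∑ P ∈ D.support.filter (fun P => P ∈ ann), D P := by
  classical
  rw [annSumG, Finsupp.sum, Finset.sum_filter]

theorem annProdG_eq (ann : Set (Place L F)) (a : Place L F → L) (D : Divisor L F) :
    annProdG ann a D = by
      classical exact ∏ P ∈ D.support.filter (fun P => P ∈ ann), a P ^ D P := by
  classical
  rw [annProdG, Finsupp.prod, Finset.prod_filter]
  refine Finset.prod_congr rfl fun P _ => ?_
  by_cases h : P ∈ ann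
  · rw [aaG, if_pos h, if_pos h]
  · rw [aaG, if_neg h, if_neg h, one_zpow]

end Dict

variable {B : Base L k} {HL : LHyp L F} {V : Type*} {Ft : V → Type*}
  [∀ v, Field (Ft v)] [∀ v, Algebra k (Ft v)] {E : Type*}

variable (𝔻 : SemiRed B HL Ft E)

theorem fibSum_eq_mapDomain (D : Divisor L F) (v : V) (Q : Place k (Ft v)) :
    𝔻.fibSum D v Q = Finsupp.mapDomain 𝔻.r D (some ⟨v, Q⟩) := by
  classical
  rw [RedDatum.mapDomain_apply_eq_sum, SemiRed.fibSum]
  refine Finset.sum_congr ?_ fun _ _ => rfl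
  ext P
  simp only [Finset.mem_filter]

/-- sums over the zeros and poles of `φ` on the annulus, as sums over a divisor of `φ`. -/
theorem sum_supp_eq (e : E) {φ : F} (hφ : φ ≠ 0) (D : Divisor L F) (hD : ∀ P, D P = P.ord φ) :
    ∑ P ∈ (𝔻.node e).supp hφ, P.ord φ = annSumG (𝔻.node e).ann D := by
  classical
  have hDe : D = divOf HL hφ := by
    ext P; rw [hD P, divOf_apply]
  rw [annSumG_eq, hDe, NodeChart.supp]
  refine Finset.sum_congr rfl fun P _ => ?_
  rw [divOf_apply]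

theorem prod_supp_eq (e : E) {φ : F} (hφ : φ ≠ 0) (D : Divisor L F) (hD : ∀ P, D P = P.ord φ) :
    ∏ P ∈ (𝔻.node e).supp hφ, (𝔻.node e).a P ^ P.ord φ =
      annProdG (𝔻.node e).ann (𝔻.node e).a D := by
  classical
  have hDe : D = divOf HL hφ := by
    ext P; rw [hD P, divOf_apply]
  rw [annProdG_eq, hDe, NodeChart.supp]
  refine Finset.prod_congr rfl fun P _ => ?_
  rw [divOf_apply]

/-- **The hypothesis bundle of the twisted NS lemma attached to a semistable datum.** -/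
def toInput : Input L F k V E Ft where
  A := B.A
  res := B.res
  res_eq_zero_iff := B.res_eq_zero_iff
  HL := HL
  Hk := 𝔻.Hk
  G v := (𝔻.side v).G
  red v := (𝔻.side v).red
  const_mem v a := (𝔻.side v).const_mem a
  red_const v a := (𝔻.side v).red_const a
  norm v y hy := by
    obtain ⟨c, hc⟩ := (𝔻.side v).exists_isNorm hy
    exact ⟨c, (isNormG_iff _ c y).mpr hc⟩
  r := 𝔻.r
  bs e := ⟨𝔻.src e, (𝔻.node e).Q⟩
  bt e := ⟨𝔻.tgt e, (𝔻.node e).Q'⟩
  r_ne_bs := 𝔻.r_ne_src
  r_ne_bt := 𝔻.r_ne_tgt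
  compat v g hg D hD Q hQs hQt := by
    classical
    have hφ : (g : F) ≠ 0 := (𝔻.side v).coe_ne_zero_of_red_ne_zero hg
    have hn : (𝔻.side v).IsNorm 1 (g : F) := (𝔻.side v).isNorm_one_of_mem g.2 hg
    have h1 := 𝔻.compat v hφ hn Q hQs hQt
    rw [(𝔻.side v).nred_one_of_mem g.2] at h1
    have hDe : D = divOf HL hφ := by
      ext P; rw [hD P, divOf_apply]
    rw [RedDatum.mapDomain_apply_eq_sum, hDe, ← h1]
    refine Finset.sum_congr ?_ fun P _ => ?_
    · ext P
      simp only [Finset.mem_filter]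
    · rw [divOf_apply]
  ann e := (𝔻.node e).ann
  ann_none e P hP := (𝔻.r_none_iff P).mpr ⟨e, hP⟩
  none_ann P hP := (𝔻.r_none_iff P).mp hP
  π e := (𝔻.node e).π
  π_ne e := (𝔻.node e).π_ne
  π_lt e := (𝔻.node e).π_lt
  a e P := (𝔻.node e).a P
  a_lt e P hP := (𝔻.node e).a_lt P hP
  π_lt_a e P hP := by
    have h := (𝔻.node e).a_gt P hP
    have ha : B.A.valuation ((𝔻.node e).a P) ≠ 0 :=
      (Valuation.ne_zero_iff _).mpr ((𝔻.node e).a_ne P hP)
    have h' : B.A.valuation ((𝔻.node e).π / (𝔻.node e).a P) < 1 := h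
    rw [map_div₀] at h'
    exact (div_lt_one₀ (zero_lt_iff.mpr ha)).mp h'
  n1 e φ c c' D hD hc hc' := by
    have hφ : φ ≠ 0 := ((isNormG_iff _ c φ).mp hc).ne_zero
    have h := (𝔻.node e).slope_add hφ ((isNormG_iff _ c φ).mp hc) ((isNormG_iff _ c' φ).mp hc')
    rw [redOf_eq_nred, redOf_eq_nred, h]
    exact sum_supp_eq 𝔻 e hφ D hD
  n2 e φ c c' D hD hc hc' := by
    have hφ : φ ≠ 0 := ((isNormG_iff _ c φ).mp hc).ne_zero
    have hn := (isNormG_iff _ c φ).mp hc
    have hn' := (isNormG_iff _ c' φ).mp hc'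
    have h1 := (𝔻.node e).slope_add hφ hn hn'
    have h2 := (𝔻.node e).val_jump hφ hn hn'
    rw [redOf_eq_nred, ← prod_supp_eq 𝔻 e hφ D hD]
    set s := (𝔻.node e).Q.ord ((𝔻.side (𝔻.src e)).nred c φ) with hs
    set s' := (𝔻.node e).Q'.ord ((𝔻.side (𝔻.tgt e)).nred c' φ) with hs'
    have hπ : B.A.valuation (𝔻.node e).π ≠ 0 := (Valuation.ne_zero_iff _).mpr (𝔻.node e).π_ne
    have hc0 : B.A.valuation c ≠ 0 := (Valuation.ne_zero_iff _).mpr hn.c_ne_zero
    have hc'0 : B.A.valuation c' ≠ 0 := (Valuation.ne_zero_iff _).mpr hn'.c_ne_zero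
    -- `∏ |π / a_P| ^ m_P = |π| ^ Σ m_P / |∏ a_P ^ m_P|`
    have e1 : ∏ P ∈ (𝔻.node e).supp hφ, B.A.valuation ((𝔻.node e).π / (𝔻.node e).a P) ^ P.ord φ =
        B.A.valuation (𝔻.node e).π ^ (s + s') /
          B.A.valuation (∏ P ∈ (𝔻.node e).supp hφ, (𝔻.node e).a P ^ P.ord φ) := by
      rw [h1, ← prod_zpow_eq_zpow_sum hπ, map_prod, ← Finset.prod_div_distrib]
      refine Finset.prod_congr rfl fun P _ => ?_
      rw [map_div₀, div_zpow, map_zpow₀]
    have hprod0 : B.A.valuation (∏ P ∈ (𝔻.node e).supp hφ, (𝔻.node e).a P ^ P.ord φ) ≠ 0 := by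
      rw [Valuation.ne_zero_iff]
      exact Finset.prod_ne_zero_iff.mpr fun P hP =>
        zpow_ne_zero _ ((𝔻.node e).a_ne P ((𝔻.node e).mem_ann_of_mem_supp hφ hP))
    rw [e1, zpow_add₀ hπ] at h2
    rw [map_div₀]
    exact cancel_aux hc'0 (zpow_ne_zero s hπ) hprod0 h2
  n3 e φ c c' D hD hc hc' hs hs' := by
    have hφ : φ ≠ 0 := ((isNormG_iff _ c φ).mp hc).ne_zero
    have hn := (isNormG_iff _ c φ).mp hc
    have hn' := (isNormG_iff _ c' φ).mp hc'
    rw [redOf_eq_nred] at hs hs'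
    obtain ⟨hU, hval⟩ := (𝔻.node e).lead_jump hφ hn hn' hs hs'
    refine ⟨⟨_, hU.mem⟩, ?_, ?_⟩
    · show c' / c * ∏ P ∈ (𝔻.node e).supp hφ, (𝔻.node e).a P ^ P.ord φ = _
      rw [prod_supp_eq 𝔻 e hφ D hD]
    · rw [redOf_eq_nred, redOf_eq_nred, hval, B.resL_of_mem hU.mem, mul_comm]

/-! ### the twisted NS lemma for `SemiRed` -/

/-- **The twisted NS lemma** (finding #335 §3) for a provisional semistable datum. -/
theorem twistedNS [Finite V] [Nonempty V] : 𝔻.TwistedNS := by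
  classical
  intro D0 hD0 hD0sm hNS hRR Z hZ h hh0 hQ hQ' ha hb1 hb2 hc
  obtain ⟨φ0, hφ0, hφ0E⟩ := hRR (Z + D0) (by rw [map_add, hZ, zero_add])
  have hRR' : ∃ f : F, f ≠ 0 ∧ ∀ P, -((Z + D0) P) ≤ P.ord f := by
    refine ⟨φ0, hφ0, fun P => ?_⟩
    have := hφ0E P
    rw [Finsupp.add_apply, divOf_apply] at this
    simp only [Finsupp.coe_zero, Pi.zero_apply] at this
    omega
  have hD0none : ∀ P, (toInput 𝔻).r P = none → D0 P = 0 := by
    intro P hP
    by_contra hne
    have hs := hD0sm P hne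
    rw [SemiRed.Smooth] at hs
    have hP' : 𝔻.r P = none := hP
    rw [hP'] at hs
    exact absurd hs (by simp)
  -- non-speciality in the form of `Input`
  have hns : ∀ f : ∀ v, Ft v,
      (∀ (v : V) (Q : Place k (Ft v)),
        -(Finsupp.mapDomain (toInput 𝔻).r D0 (some ⟨v, Q⟩)) ≤ Q.ord (f v)) →
      (∀ e, valF ((toInput 𝔻).Hk ((toInput 𝔻).bs e).1) ((toInput 𝔻).bs e).2
          (f ((toInput 𝔻).bs e).1) =
        valF ((toInput 𝔻).Hk ((toInput 𝔻).bt e).1) ((toInput 𝔻).bt e).2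
          (f ((toInput 𝔻).bt e).1)) →
      ∃ c : k, ∀ v, f v = algebraMap k (Ft v) c := by
    intro f hf1 hf2
    exact hNS ⟨f, fun v _ Q => by
      have := hf1 v Q
      rw [fibSum_eq_mapDomain]
      exact this, hf2⟩
  obtain ⟨φ, hφ, E', hE', hEnn, hEsm, hEr⟩ := (toInput 𝔻).exists_effective_gen D0
    (fun P => hD0 P) hD0none hns Z hRR' h hh0 hQ hQ'
    (fun v Q hQs hQt => by
      have := ha v Q ⟨hQs, hQt⟩
      rw [fibSum_eq_mapDomain] at this
      exact this)
    (fun e => by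
      have := hb1 e
      show annSumG (𝔻.node e).ann Z = 0
      rw [annSumG_eq]
      exact this)
    (fun e => by
      have := hb2 e
      show B.A.valuation (annProdG (𝔻.node e).ann (𝔻.node e).a Z) = 1
      rw [annProdG_eq]
      exact this)
    (fun e => by
      have h1 := hb2 e
      have h2 := hc e
      refine ⟨⟨_, h1.mem⟩, ?_, ?_⟩
      · show 𝔻.annProd Z e = annProdG (𝔻.node e).ann (𝔻.node e).a Z
        rw [annProdG_eq]; rfl
      · show valF (𝔻.Hk (𝔻.tgt e)) (𝔻.node e).Q' (h (𝔻.tgt e)) =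
          valF (𝔻.Hk (𝔻.src e)) (𝔻.node e).Q (h (𝔻.src e)) * B.res ⟨_, h1.mem⟩
        rw [h2, B.resL_of_mem h1.mem, mul_comm])
  have hEeq : Z + D0 + divOf HL hφ = E' := by
    ext P
    rw [hE' P, Finsupp.add_apply, Finsupp.add_apply, divOf_apply]
  refine ⟨φ, hφ, ?_, ?_, ?_⟩
  · rw [hEeq]; exact fun P => hEnn P
  · rw [hEeq]
    intro P hP
    rw [SemiRed.Smooth, Option.isSome_iff_ne_none]
    exact fun hnone => hP (hEsm P hnone)
  · intro v Q
    rw [hEeq, fibSum_eq_mapDomain, fibSum_eq_mapDomain]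
    exact hEr ⟨v, Q⟩

end

end Fermat.Agent.ORD.ANN.TwistedNSAdapt2
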