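/-
Programme ORD (S33), chapter ANN (helper3): **property (i) on `Pic0`** — for a semistable datum `𝔻`
(helper9's `SemiRedDatum`), a non-special system `S` and an inertial automorphism `σ`, every class `x`
killed by `p ^ m` (`p = char k`, `k` perfect) satisfies `σ • x - x = S.kap T` for some `T ∈ m_A^g`:
inertia acts trivially on `J[p^m] / (J[p^m] ∩ range kap)`.

* `exists_Ediv_eq` : an effective divisor with reduction `D~0` is an `E(T)`;
* `exists_kap_eq_smul_sub` : the theorem.
-/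
import Mathlib
import Fermat.Agent.ORD.ANN.Inertial3
import Fermat.Agent.ORD.ANN.TwistedNSAdapt2
import Fermat.Agent.ORD.KERN.KerDefs9

set_option autoImplicit false
set_option linter.unusedSectionVars false
set_option linter.style.longLine false

namespace Fermat.Agent.ORD.ANN.InertialPic3

open AlgebraicCurve Fermat.Agent.X0.FF Fermat.Agent.RR.LSpace Fermat.Agent.MW.EMB.Value6
open Fermat.Agent.ORD.ANN.Side3 Fermat.Agent.ORD.ANN.Node3 Fermat.Agent.ORD.ANN.SemiRed3
open Fermat.Agent.ORD.ANN.Inertial3 Fermat.Agent.ORD.ANN.TwistedNSAdapt2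
open Fermat.Agent.ORD.SEMIRED.SemiRedDatum9 Fermat.Agent.ORD.SEMIRED.ToSemiRed9
open Fermat.Agent.ORD.KERN.KerDefs9 Fermat.Agent.FF.KER.Ker0

noncomputable section

variable {L F k Ft : Type*} [Field L] [Field F] [Algebra L F] [Field k] [Field Ft] [Algebra k Ft]
variable {ι E : Type*} {𝔻 : SemiRedDatum L F k Ft ι E} {g : ℕ}

open Classical in
/-- a nonzero fibre sum has a nonzero term. -/
theorem exists_of_mapDomain_ne_zero {α β : Type*} (f : α → β) (v : α →₀ ℤ) (b : β)
    (h : Finsupp.mapDomain f v b ≠ 0) : ∃ a, f a = b ∧ v a ≠ 0 := by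
  rw [CompDatum.mapDomain_apply_eq_sum] at h
  obtain ⟨a, ha, hne⟩ := Finset.exists_ne_zero_of_sum_ne_zero h
  exact ⟨a, (Finset.mem_filter.mp ha).2, hne⟩

/-- An effective divisor whose reduction is `D~0` is `E(T)` for a unique `T`. -/
theorem exists_Ediv_eq (S : NSSystemN 𝔻 g) {E' : Divisor L F} (hE : 0 ≤ E')
    (hEr : Finsupp.mapDomain 𝔻.r E' = S.redDiv) : ∃ T : Fin g → mA 𝔻, S.Ediv T = E' := by
  classical
  -- a point of `E'` in each disc
  have hex : ∀ i : Fin g, ∃ P' : Place L F, 𝔻.r P' = Sum.inl (S.c i, S.Q i) ∧ 1 ≤ E' P' := by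
    intro i
    have h1 : Finsupp.mapDomain 𝔻.r E' (Sum.inl (S.c i, S.Q i)) =
        S.redDiv (Sum.inl (S.c i, S.Q i)) := by rw [hEr]
    rw [S.redDiv_apply_Q] at h1
    obtain ⟨P', hP'r, hP'ne⟩ := exists_of_mapDomain_ne_zero 𝔻.r E' _ (by rw [h1]; exact one_ne_zero)
    refine ⟨P', hP'r, ?_⟩
    have := hE P'
    simp only [Finsupp.coe_zero, Pi.zero_apply] at this
    omega
  choose P' hP'r hP'E using hex
  have hP'inj : Function.Injective P' := by
    intro i j hij
    apply S.inj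
    have h1 := hP'r i
    rw [hij, hP'r j] at h1
    exact (Sum.inl.inj h1).symm
  set E'' : Divisor L F := ∑ i, Finsupp.single (P' i) (1 : ℤ) with hE''def
  have hE''apply : ∀ P, E'' P = if ∃ i, P' i = P then 1 else 0 := by
    intro P
    rw [hE''def, Finsupp.finsetSum_apply]
    split_ifs with h
    · obtain ⟨i, rfl⟩ := h
      rw [Finset.sum_eq_single i]
      · simp
      · intro j _ hji
        rw [Finsupp.single_apply, if_neg]
        intro h
        exact hji (hP'inj h)
      · intro h; exact absurd (Finset.mem_univ i) h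
    · push Not at h
      exact Finset.sum_eq_zero fun i _ => by rw [Finsupp.single_apply, if_neg (h i)]
  have hE''r : Finsupp.mapDomain 𝔻.r E'' = S.redDiv := by
    rw [hE''def, S.redDiv_def, Finsupp.mapDomain_finsetSum]
    refine Finset.sum_congr rfl fun i _ => ?_
    rw [Finsupp.mapDomain_single, hP'r]
  have hdiff : 0 ≤ E' - E'' := by
    intro P
    rw [Finsupp.sub_apply, hE''apply]
    simp only [Finsupp.coe_zero, Pi.zero_apply]
    split_ifs with h
    · obtain ⟨i, rfl⟩ := h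
      have := hP'E i
      omega
    · have := hE P
      simp only [Finsupp.coe_zero, Pi.zero_apply] at this
      omega
  have hEE'' : E' = E'' := by
    ext P
    have h0 : Finsupp.mapDomain 𝔻.r (E' - E'') (𝔻.r P) = 0 := by
      rw [mapDomain_sub', Finsupp.sub_apply, hEr, hE''r, sub_self]
    have := eq_zero_of_mapDomain_eq_zero 𝔻.r hdiff h0 (a := P) rfl
    rw [Finsupp.sub_apply] at this
    omega
  refine ⟨fun i => S.coord i (hP'r i), ?_⟩
  rw [hEE'', hE''def, NSSystemN.Ediv]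
  refine Finset.sum_congr rfl fun i _ => ?_
  rw [S.pt_coord]

/-- **Property (i)**: inertia moves `p`-power torsion classes by elements of the kernel of
reduction. -/
theorem exists_kap_eq_smul_sub [Finite ι] [Nonempty ι] (S : NSSystemN 𝔻 g)
    (hRR : ∀ E' : Divisor L F, Divisor.degree E' = g → ∃ f : F, f ≠ 0 ∧ ∀ P, -(E' P) ≤ P.ord f)
    {p : ℕ} [Fact p.Prime] [CharP k p] [PerfectRing k p]
    {σ : SemilinearAut L F} (hσ : Inertial (toSemiRed 𝔻) σ)
    (x : Pic0 L F) (m : ℕ) (hx : p ^ m • x = 0) :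
    ∃ T : Fin g → mA 𝔻, σ • x - x = S.kap T := by
  classical
  obtain ⟨⟨Dx, hDx⟩, rfl⟩ := Pic0.mk_surjective x
  -- `p ^ m • Dx` is principal
  have hmD : (p ^ m) • Dx ∈ Divisor.principal (K := L) (F := F) := by
    have h1 : Pic0.mk ((p ^ m) • (⟨Dx, hDx⟩ : Divisor.degZero (K := L) (F := F))) = 0 := by
      rw [← hx]; rfl
    have h2 := (QuotientAddGroup.eq_zero_iff _).mp h1
    rw [AddSubgroup.mem_addSubgroupOf] at h2
    simpa using h2
  obtain ⟨fx, hfx0, hfxD⟩ := hmD
  have hdiv : ∀ P : Place L F, (p : ℤ) ^ m * Dx P = P.ord fx := by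
    intro P
    rw [← hfxD P]
    simp
  -- Riemann–Roch in the form of `Inertial3`
  have hRR' : ∀ D : Divisor L F, Divisor.degree D = Divisor.degree S.D0 →
      ∃ (φ : F) (hφ : φ ≠ 0), 0 ≤ D + divOf 𝔻.HL hφ := by
    intro D hD
    rw [S.degree_D0] at hD
    obtain ⟨f, hf, hfD⟩ := hRR D hD
    refine ⟨f, hf, fun P => ?_⟩
    rw [Finsupp.add_apply, divOf_apply]
    have := hfD P
    simp only [Finsupp.coe_zero, Pi.zero_apply]
    omega
  obtain ⟨φ, hφ, hE0, hEsm, hEfib⟩ := exists_effective_of_inertial (toSemiRed 𝔻)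
    (twistedNS (toSemiRed 𝔻)) hσ S.D0 S.D0_nonneg (fun P h => S.smooth_of_D0_ne_zero h)
    S.nonSpecial_D0 hRR' Dx m fx hfx0 hdiv
  set E' : Divisor L F := (σ • Dx - Dx) + S.D0 + divOf 𝔻.HL hφ with hE'def
  -- the reduction of `E'` is `D~0`
  have hEr : Finsupp.mapDomain 𝔻.r E' = S.redDiv := by
    ext y
    rcases y with ⟨v, Q'⟩ | e
    · rw [← toSemiRed_fibSum, hEfib, S.fibSum_D0]
    · have hoff : OffAnn 𝔻 E' := by
        intro P e' he'
        by_contra hne
        have h1 := hEsm P hne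
        rw [toSemiRed_smooth_iff] at h1
        obtain ⟨v, Q', hvQ⟩ := h1
        rw [hvQ] at he'
        exact absurd he' (by simp)
      rw [S.redDiv_apply_inr, hoff.mapDomain_inr]
  obtain ⟨T, hT⟩ := exists_Ediv_eq S hE0 hEr
  refine ⟨T, ?_⟩
  -- compare the classes
  rw [SemilinearAut.pic0_smul_mk]
  show Pic0.mk (SemilinearAut.degZeroSMulHom σ ⟨Dx, hDx⟩ - ⟨Dx, hDx⟩) = Pic0.mk (S.kapDiv T)
  rw [NSSystem.mk_eq_mk_iff]
  refine ⟨φ, hφ, fun P => ?_⟩
  show ((S.Ediv T - S.D0) - (σ • Dx - Dx)) P = _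
  rw [hT, hE'def]
  simp only [Finsupp.sub_apply, Finsupp.add_apply, divOf_apply]
  ring

end

end Fermat.Agent.ORD.ANN.InertialPic3
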