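/-
Programme ORD (S33), chapter ANN (helper3): **(NODE)** — an integral function without poles on the
annulus of a node has reductions which are regular at the two branches, with the same value; the common
value is `0` as soon as the function has a zero on the annulus.  (Consequence of (N1), (N2), (N3).)

* `NodeChart.val_jump'` : the mirror form of (N2), `|c| * |π| ^ s' = |c'| * ∏ |a_P| ^ m_P`;
* `Side.red_eq_zero_or_isNorm_one` : an integral function has zero reduction or is normalised by `1`;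
* `NodeChart.matched` : (NODE).
-/
import Mathlib
import Fermat.Agent.ORD.ANN.Node3

set_option autoImplicit false
set_option linter.unusedSectionVars false
set_option linter.style.longLine false

namespace Fermat.Agent.ORD.ANN.Matched3

open AlgebraicCurve Fermat.Agent.X0.FF Fermat.Agent.RR.LSpace Fermat.Agent.MW.EMB.Value6
open Fermat.Agent.ORD.ANN.Side3 Fermat.Agent.ORD.ANN.Node3

noncomputable section

variable {L k F Ft Ft' : Type*} [Field L] [Field k] [Field F] [Algebra L F]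
  [Field Ft] [Algebra k Ft] [Field Ft'] [Algebra k Ft']

/-! ### integral functions -/

section Side

variable {B : Base L k} (S : Side B F Ft)

/-- For `g ∈ G` and a normaliser `c` of `g` : `|c| ≥ 1`. -/
theorem one_le_val_of_isNorm {g : F} (hg : g ∈ S.G) {c : L} (h : S.IsNorm c g) :
    1 ≤ B.A.valuation c := by
  by_contra hlt
  rw [not_le] at hlt
  have hm : B.IsM c := hlt
  apply h.2
  have e : (⟨algebraMap L F c * g, h.1⟩ : S.G) = S.const ⟨c, hm.mem⟩ * ⟨g, hg⟩ := Subtype.ext rfl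
  have h0 : B.res ⟨c, hm.mem⟩ = 0 := (B.res_eq_zero_iff _).mpr hm.not_isUnit
  rw [e, map_mul, S.red_const', h0, map_zero, zero_mul]

/-- If the normaliser has `|c| > 1` the reduction of `g` vanishes. -/
theorem red_eq_zero_of_one_lt {g : F} (hg : g ∈ S.G) {c : L} (h : S.IsNorm c g)
    (hc : 1 < B.A.valuation c) : S.red ⟨g, hg⟩ = 0 := by
  have hc0 := h.c_ne_zero
  have hm : B.IsM c⁻¹ := by
    rw [Base.IsM, map_inv₀]
    exact inv_lt_one_of_one_lt₀ hc
  have e : (⟨g, hg⟩ : S.G) = S.const ⟨c⁻¹, hm.mem⟩ * ⟨algebraMap L F c * g, h.1⟩ := by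
    apply Subtype.ext
    show g = algebraMap L F c⁻¹ * (algebraMap L F c * g)
    rw [← mul_assoc, ← map_mul, inv_mul_cancel₀ hc0, map_one, one_mul]
  have h0 : B.res ⟨c⁻¹, hm.mem⟩ = 0 := (B.res_eq_zero_iff _).mpr hm.not_isUnit
  rw [e, map_mul, S.red_const', h0, map_zero, zero_mul]

/-- If the normaliser has `|c| = 1` then `1` is a normaliser. -/
theorem isNorm_one_of_val_eq_one {g : F} {c : L} (h : S.IsNorm c g) (hc : B.A.valuation c = 1) :
    S.IsNorm 1 g := by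
  have hu : B.IsU c := hc
  have := (h.of_isU_mul hu.inv).1
  rwa [inv_mul_cancel₀ hu.ne_zero] at this

end Side

/-! ### the mirror form of (N2) -/

namespace NodeChartAux

variable {B : Base L k} {HL : LHyp L F} {S : Side B F Ft} {S' : Side B F Ft'}
  {Hk : LHyp k Ft} {Hk' : LHyp k Ft'} (N : NodeChart B HL S S' Hk Hk')

theorem val_a_ne_zero {P : Place L F} (hP : P ∈ N.ann) : B.A.valuation (N.a P) ≠ 0 :=
  (Valuation.ne_zero_iff _).mpr (N.a_ne P hP)

theorem val_π_ne_zero : B.A.valuation N.π ≠ 0 := (Valuation.ne_zero_iff _).mpr N.π_ne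

theorem val_π_pos : 0 < B.A.valuation N.π := zero_lt_iff.mpr (val_π_ne_zero N)

theorem val_π_lt_one : B.A.valuation N.π < 1 := N.π_lt

/-- **(N2), mirror form**. -/
theorem val_jump' {φ : F} (hφ : φ ≠ 0) {c c' : L} (h : S.IsNorm c φ) (h' : S'.IsNorm c' φ) :
    B.A.valuation c * B.A.valuation N.π ^ N.Q'.ord (S'.nred c' φ) =
      B.A.valuation c' * ∏ P ∈ N.supp hφ, B.A.valuation (N.a P) ^ P.ord φ := by
  have hπ := val_π_ne_zero N
  have h1 := N.slope_add hφ h h'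
  have h2 := N.val_jump hφ h h'
  set s := N.Q.ord (S.nred c φ)
  set s' := N.Q'.ord (S'.nred c' φ)
  have hs' : s' = (∑ P ∈ N.supp hφ, P.ord φ) - s := by omega
  -- `∏ |π/a|^m = |π|^{Σ m} * (∏ |a|^m)⁻¹`
  have e1 : ∏ P ∈ N.supp hφ, B.A.valuation (N.π / N.a P) ^ P.ord φ =
      B.A.valuation N.π ^ (∑ P ∈ N.supp hφ, P.ord φ) *
        (∏ P ∈ N.supp hφ, B.A.valuation (N.a P) ^ P.ord φ)⁻¹ := by
    rw [← prod_zpow_base hπ, ← Finset.prod_inv_distrib, ← Finset.prod_mul_distrib]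
    refine Finset.prod_congr rfl fun P _ => ?_
    rw [map_div₀, div_eq_mul_inv, mul_zpow, inv_zpow]
  have hPi : ∏ P ∈ N.supp hφ, B.A.valuation (N.a P) ^ P.ord φ ≠ 0 :=
    Finset.prod_ne_zero_iff.mpr fun P hP =>
      zpow_ne_zero _ (val_a_ne_zero N (N.mem_ann_of_mem_supp hφ hP))
  rw [e1] at h2
  rw [hs', zpow_sub₀ hπ]
  have hs0 : B.A.valuation N.π ^ s ≠ 0 := zpow_ne_zero _ hπ
  generalize B.A.valuation N.π ^ (∑ P ∈ N.supp hφ, P.ord φ) = X at h2 ⊢
  generalize ∏ P ∈ N.supp hφ, B.A.valuation (N.a P) ^ P.ord φ = Y at h2 hPi ⊢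
  generalize B.A.valuation N.π ^ s = T at h2 hs0 ⊢
  -- `h2 : |c'| T = |c| (X Y⁻¹)`, goal `|c| (X / T) = |c'| Y`
  have h3 : B.A.valuation c * X = B.A.valuation c' * T * Y := by
    rw [h2, mul_assoc, mul_assoc, inv_mul_cancel₀ hPi, mul_one]
  rw [div_eq_mul_inv, ← mul_assoc, h3, mul_assoc, mul_assoc, mul_comm Y, ← mul_assoc T,
    mul_inv_cancel₀ hs0, one_mul]

end NodeChartAux

/-! ### (NODE) -/

section Prod

variable {Γ₀ : Type*} [LinearOrderedCommGroupWithZero Γ₀] {ι : Type*}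

theorem zpow_le_one_of_nonneg' {a : Γ₀} (ha : a ≤ 1) {m : ℤ} (hm : 0 ≤ m) : a ^ m ≤ 1 := by
  lift m to ℕ using hm
  rw [zpow_natCast]
  exact pow_le_one₀ zero_le ha

theorem zpow_lt_one_of_pos' {a : Γ₀} (ha : a < 1) {m : ℤ} (hm : 0 < m) : a ^ m < 1 := by
  lift m to ℕ using hm.le
  rw [zpow_natCast]
  exact pow_lt_one₀ zero_le ha (by omega)

theorem prod_zpow_le_one (s : Finset ι) (f : ι → Γ₀) (m : ι → ℤ) (hf : ∀ i ∈ s, f i ≤ 1)
    (hm : ∀ i ∈ s, 0 ≤ m i) : ∏ i ∈ s, f i ^ m i ≤ 1 :=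
  Finset.prod_le_one' fun i hi => zpow_le_one_of_nonneg' (hf i hi) (hm i hi)

theorem prod_zpow_lt_one (s : Finset ι) (f : ι → Γ₀) (m : ι → ℤ) (hf : ∀ i ∈ s, f i < 1)
    (hm : ∀ i ∈ s, 0 < m i) (hs : s.Nonempty) : ∏ i ∈ s, f i ^ m i < 1 := by
  classical
  obtain ⟨i₀, hi₀⟩ := hs
  rw [← Finset.mul_prod_erase s _ hi₀]
  have h1 : f i₀ ^ m i₀ < 1 := zpow_lt_one_of_pos' (hf i₀ hi₀) (hm i₀ hi₀)
  have h2 : ∏ i ∈ s.erase i₀, f i ^ m i ≤ 1 :=
    prod_zpow_le_one _ f m (fun i hi => (hf i (Finset.mem_of_mem_erase hi)).le)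
      (fun i hi => (hm i (Finset.mem_of_mem_erase hi)).le)
  calc f i₀ ^ m i₀ * ∏ i ∈ s.erase i₀, f i ^ m i ≤ f i₀ ^ m i₀ * 1 := by gcongr
    _ < 1 := by rw [mul_one]; exact h1

/-- `|c| > 1`, `|c| * t ≤ 1` ⟹ `t < 1`. -/
theorem lt_one_of_mul_le_one {c t : Γ₀} (hc : 1 < c) (h : c * t ≤ 1) : t < 1 := by
  by_contra ht
  rw [not_lt] at ht
  have : c * 1 ≤ c * t := by gcongr
  rw [mul_one] at this
  exact absurd (lt_of_lt_of_le hc (this.trans h)) (lt_irrefl _)

end Prod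

namespace NodeChartAux

variable {B : Base L k} {HL : LHyp L F} {S : Side B F Ft} {S' : Side B F Ft'}
  {Hk : LHyp k Ft} {Hk' : LHyp k Ft'} (N : NodeChart B HL S S' Hk Hk')

theorem ord_pos_of_mem_supp {g : F} (hg : g ≠ 0) (hpf : ∀ P ∈ N.ann, 0 ≤ P.ord g)
    {P : Place L F} (hP : P ∈ N.supp hg) : 0 < P.ord g := by
  have h := (N.mem_supp hg).mp hP
  have := hpf P h.2
  omega

theorem prodQ_le_one {g : F} (hg : g ≠ 0) (hpf : ∀ P ∈ N.ann, 0 ≤ P.ord g) :
    ∏ P ∈ N.supp hg, B.A.valuation (N.π / N.a P) ^ P.ord g ≤ 1 :=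
  prod_zpow_le_one _ _ _ (fun P hP => (N.a_gt P (N.mem_ann_of_mem_supp hg hP)).le)
    (fun _ hP => (ord_pos_of_mem_supp N hg hpf hP).le)

theorem prodA_le_one {g : F} (hg : g ≠ 0) (hpf : ∀ P ∈ N.ann, 0 ≤ P.ord g) :
    ∏ P ∈ N.supp hg, B.A.valuation (N.a P) ^ P.ord g ≤ 1 :=
  prod_zpow_le_one _ _ _ (fun P hP => (N.a_lt P (N.mem_ann_of_mem_supp hg hP)).le)
    (fun _ hP => (ord_pos_of_mem_supp N hg hpf hP).le)

theorem prodQ_lt_one {g : F} (hg : g ≠ 0) (hpf : ∀ P ∈ N.ann, 0 ≤ P.ord g)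
    (hne : (N.supp hg).Nonempty) :
    ∏ P ∈ N.supp hg, B.A.valuation (N.π / N.a P) ^ P.ord g < 1 :=
  prod_zpow_lt_one _ _ _ (fun P hP => N.a_gt P (N.mem_ann_of_mem_supp hg hP))
    (fun _ hP => ord_pos_of_mem_supp N hg hpf hP) hne

theorem prodA_lt_one {g : F} (hg : g ≠ 0) (hpf : ∀ P ∈ N.ann, 0 ≤ P.ord g)
    (hne : (N.supp hg).Nonempty) :
    ∏ P ∈ N.supp hg, B.A.valuation (N.a P) ^ P.ord g < 1 :=
  prod_zpow_lt_one _ _ _ (fun P hP => N.a_lt P (N.mem_ann_of_mem_supp hg hP))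
    (fun _ hP => ord_pos_of_mem_supp N hg hpf hP) hne

/-- a function with positive order at `Q` has value `0` there. -/
theorem valF_eq_zero_of_ord_pos {K E : Type*} [Field K] [Field E] [Algebra K E] (H : LHyp K E)
    (Q : Place K E) {f : E} (h : 0 < Q.ord f) : valF H Q f = 0 :=
  (valF_eq_zero_iff H Q (ffp_mem_of_ord_nonneg Q h.le)).mpr (Or.inr h)

/-- **(NODE)**: an integral function without poles on the annulus has reductions regular at the two
branches with the same value, which is `0` if the function has a zero on the annulus. -/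
theorem matched (g : F) (hs : g ∈ S.G) (ht : g ∈ S'.G) (hpf : ∀ P ∈ N.ann, 0 ≤ P.ord g) :
    0 ≤ N.Q.ord (S.red ⟨g, hs⟩) ∧ 0 ≤ N.Q'.ord (S'.red ⟨g, ht⟩) ∧
      valF Hk N.Q (S.red ⟨g, hs⟩) = valF Hk' N.Q' (S'.red ⟨g, ht⟩) ∧
      ((∃ P ∈ N.ann, 0 < P.ord g) → valF Hk N.Q (S.red ⟨g, hs⟩) = 0) := by
  classical
  by_cases hg0 : g = 0
  · subst hg0
    have e1 : S.red ⟨0, hs⟩ = 0 := map_zero S.red
    have e2 : S'.red ⟨0, ht⟩ = 0 := map_zero S'.red
    rw [e1, e2, Place.ord_zero, Place.ord_zero, valF_zero, valF_zero]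
    exact ⟨le_rfl, le_rfl, rfl, fun _ => rfl⟩
  obtain ⟨c, hc⟩ := S.exists_isNorm hg0
  obtain ⟨c', hc'⟩ := S'.exists_isNorm hg0
  have h1c := one_le_val_of_isNorm S hs hc
  have h1c' := one_le_val_of_isNorm S' ht hc'
  have hπ0 := val_π_pos N
  have hπ1 := val_π_lt_one N
  rcases eq_or_lt_of_le h1c with hce | hclt
  · -- `g` is normalised on `S`
    have hn := isNorm_one_of_val_eq_one S hc hce.symm
    have er : S.nred 1 g = S.red ⟨g, hs⟩ := S.nred_one_of_mem hs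
    rcases eq_or_lt_of_le h1c' with hce' | hclt'
    · -- normalised on both sides
      have hn' := isNorm_one_of_val_eq_one S' hc' hce'.symm
      have er' : S'.nred 1 g = S'.red ⟨g, ht⟩ := S'.nred_one_of_mem ht
      have j1 := N.val_jump hg0 hn hn'
      have j2 := val_jump' N hg0 hn hn'
      rw [map_one, one_mul, one_mul, er] at j1
      rw [map_one, one_mul, one_mul, er'] at j2
      by_cases hne : (N.supp hg0).Nonempty
      · have s1 : 0 < N.Q.ord (S.red ⟨g, hs⟩) := by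
          rw [← zpow_lt_one_iff_right_of_lt_one₀ hπ0 hπ1, j1]
          exact prodQ_lt_one N hg0 hpf hne
        have s2 : 0 < N.Q'.ord (S'.red ⟨g, ht⟩) := by
          rw [← zpow_lt_one_iff_right_of_lt_one₀ hπ0 hπ1, j2]
          exact prodA_lt_one N hg0 hpf hne
        refine ⟨s1.le, s2.le, ?_, fun _ => valF_eq_zero_of_ord_pos Hk N.Q s1⟩
        rw [valF_eq_zero_of_ord_pos Hk N.Q s1, valF_eq_zero_of_ord_pos Hk' N.Q' s2]
      · rw [Finset.not_nonempty_iff_eq_empty] at hne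
        rw [hne, Finset.prod_empty] at j1 j2
        have s1 : N.Q.ord (S.red ⟨g, hs⟩) = 0 :=
          (zpow_eq_one_iff_right₀ hπ0.le (ne_of_lt hπ1)).mp j1
        have s2 : N.Q'.ord (S'.red ⟨g, ht⟩) = 0 :=
          (zpow_eq_one_iff_right₀ hπ0.le (ne_of_lt hπ1)).mp j2
        have j3 := N.lead_jump hg0 hn hn' (by rw [er]; exact s1) (by rw [er']; exact s2)
        rw [hne, Finset.prod_empty, div_one, mul_one, B.resL_one, one_mul, er, er'] at j3
        refine ⟨le_of_eq s1.symm, le_of_eq s2.symm, j3.2.symm, ?_⟩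
        rintro ⟨P, hP, hpos⟩
        have : P ∈ N.supp hg0 := (N.mem_supp hg0).mpr ⟨by omega, hP⟩
        rw [hne] at this
        exact absurd this (Finset.notMem_empty _)
    · -- zero reduction on `S'`
      have e2 : S'.red ⟨g, ht⟩ = 0 := red_eq_zero_of_one_lt S' ht hc' hclt'
      have j1 := N.val_jump hg0 hn hc'
      rw [map_one, one_mul, er] at j1
      have s1 : 0 < N.Q.ord (S.red ⟨g, hs⟩) := by
        rw [← zpow_lt_one_iff_right_of_lt_one₀ hπ0 hπ1]
        exact lt_one_of_mul_le_one hclt' (j1 ▸ prodQ_le_one N hg0 hpf)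
      rw [e2, Place.ord_zero, valF_zero, valF_eq_zero_of_ord_pos Hk N.Q s1]
      exact ⟨s1.le, le_rfl, rfl, fun _ => rfl⟩
  · -- zero reduction on `S`
    have e1 : S.red ⟨g, hs⟩ = 0 := red_eq_zero_of_one_lt S hs hc hclt
    rw [e1, Place.ord_zero, valF_zero]
    rcases eq_or_lt_of_le h1c' with hce' | hclt'
    · have hn' := isNorm_one_of_val_eq_one S' hc' hce'.symm
      have er' : S'.nred 1 g = S'.red ⟨g, ht⟩ := S'.nred_one_of_mem ht
      have j2 := val_jump' N hg0 hc hn'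
      rw [map_one, one_mul, er'] at j2
      have s2 : 0 < N.Q'.ord (S'.red ⟨g, ht⟩) := by
        rw [← zpow_lt_one_iff_right_of_lt_one₀ hπ0 hπ1]
        exact lt_one_of_mul_le_one hclt (j2 ▸ prodA_le_one N hg0 hpf)
      rw [valF_eq_zero_of_ord_pos Hk' N.Q' s2]
      exact ⟨le_rfl, s2.le, rfl, fun _ => rfl⟩
    · have e2 : S'.red ⟨g, ht⟩ = 0 := red_eq_zero_of_one_lt S' ht hc' hclt'
      rw [e2, Place.ord_zero, valF_zero]
      exact ⟨le_rfl, le_rfl, rfl, fun _ => rfl⟩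

end NodeChartAux

end

end Fermat.Agent.ORD.ANN.Matched3
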