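/-
Programme ORD (S33), chapter ANN (helper3): **(NODE) for helper9's `SemiRedDatum`** :
`SemiRedDatum.NodeMatched` holds for every semistable datum (it is a consequence of the node axioms
(X1), (X2), (PT), (UNIT) through (N1)–(N3), `Matched3.NodeChartAux.matched`).
-/
import Mathlib
import Fermat.Agent.ORD.ANN.Matched3
import Fermat.Agent.ORD.SEMIRED.SemiRedDatum9

set_option autoImplicit false
set_option linter.unusedSectionVars false
set_option linter.style.longLine false

namespace Fermat.Agent.ORD.ANN.MatchedDatum3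

open AlgebraicCurve Fermat.Agent.X0.FF Fermat.Agent.RR.LSpace Fermat.Agent.MW.EMB.Value6
open Fermat.Agent.ORD.ANN.Side3 Fermat.Agent.ORD.ANN.Node3 Fermat.Agent.ORD.ANN.Matched3
open Fermat.Agent.ORD.SEMIRED.SemiRedDatum9

variable {L F k Ft : Type*} [Field L] [Field F] [Algebra L F] [Field k] [Field Ft] [Algebra k Ft]
variable {ι E : Type*}

/-- **(NODE)** holds in every semistable datum. -/
theorem nodeMatched (𝔻 : SemiRedDatum L F k Ft ι E) : 𝔻.NodeMatched := by
  intro e g hs ht hpf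
  have hpf' : ∀ P ∈ (𝔻.node e).ann, 0 ≤ P.ord g := fun P hP => hpf P ((𝔻.r_ann e P).mp hP)
  obtain ⟨h1, h2, h3, h4⟩ := NodeChartAux.matched (𝔻.node e) g hs ht hpf'
  refine ⟨h1, h2, h3, ?_⟩
  rintro ⟨P, hP, hpos⟩
  exact h4 ⟨P, (𝔻.r_ann e P).mpr hP, hpos⟩

end Fermat.Agent.ORD.ANN.MatchedDatum3
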